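import Mathlib.LinearAlgebra.Matrix.Trace
import Mathlib.LinearAlgebra.Matrix.Notation
import Mathlib.RingTheory.Ideal.Operations
import Mathlib.LinearAlgebra.Matrix.StdBasis

/-!
An abstract comparison of a two-dimensional representation with an action satisfying
quadratic relations with central coefficients: every relation of the latter is a relation
of the former.
-/

set_option autoImplicit false

namespace FLTA.HeckeDatum

open Matrix

section Key

variable {G E R T : Type*} [Group G] [Ring E] [CommRing R] [CommRing T]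
  (α : R →+* E) (π : R →+* T) (I : Ideal T) (u : G →* E)
  (ρ : G →* Matrix (Fin 2) (Fin 2) T) (c τ : G → R)

theorem key_commutator_kills
    (hcomm : ∀ r g, Commute (α r) (u g))
    (hc1 : α (c 1) = 1) (hc : ∀ g h, α (c (g * h)) = α (c g) * α (c h))
    (hτ : ∀ g, u g + α (c g) * u g⁻¹ = α (τ g))
    {ι : Type*} (s : Finset ι) (r : ι → R) (g : ι → G)
    (hrel : ∑ i ∈ s, α (r i) * u (g i) = 0) (a b : G) :
    α (∑ i ∈ s, r i * τ (g i)) * (u (a * b) - u (b * a)) = 0 := by
  let iot : G → E := fun x => α (c x) * u x⁻¹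
  have hiot : ∀ x y, iot (x * y) = iot y * iot x := by
    intro x y
    simp only [iot, hc, _root_.mul_inv_rev, map_mul]
    rw [← map_mul α, mul_comm (c x) (c y), map_mul α]
    rw [mul_assoc (α (c y)), mul_assoc (α (c y)), ← mul_assoc (α (c x)), (hcomm (c x) y⁻¹).eq,
      mul_assoc]
  set S := ∑ i ∈ s, r i * τ (g i) with hS
  have hexp : ∀ h, α (∑ i ∈ s, r i * τ (g i * h)) = α S * iot h := by
    intro h
    have h1 : α S = ∑ i ∈ s, α (r i) * iot (g i) := by
      simp only [hS, map_sum, map_mul, ← hτ, mul_add, Finset.sum_add_distrib, iot, hrel, zero_add]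
    have h2 : ∀ x y, Commute (α x) (iot y) := fun x y =>
      ((show Commute x (c y) from mul_comm _ _).map α).mul_right (hcomm x y⁻¹)
    rw [(h2 S h).eq, h1, Finset.mul_sum]
    simp only [map_sum, map_mul, ← hτ, mul_add, Finset.sum_add_distrib, ← mul_assoc]
    rw [← Finset.sum_mul, hrel, zero_mul, zero_add]
    refine Finset.sum_congr rfl fun i _ => ?_
    rw [mul_assoc, show α (c (g i * h)) * u (g i * h)⁻¹ = iot h * iot (g i) from hiot _ _,
      ← mul_assoc, (h2 (r i) h).eq]
  have hcen : Commute (α S * iot a⁻¹) (u b) := by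
    rw [← hexp]; exact hcomm _ b
  have h3 : α (c a⁻¹) * (α S * (u (a * b) - u (b * a))) = 0 := by
    have h4 := hcen.eq
    simp only [iot, inv_inv] at h4
    have e1 : α S * (α (c a⁻¹) * u a) * u b = α (c a⁻¹) * (α S * u (a * b)) := by
      rw [← mul_assoc, ← map_mul, mul_comm S, map_mul, map_mul, mul_assoc, mul_assoc]
    have e2 : u b * (α S * (α (c a⁻¹) * u a)) = α (c a⁻¹) * (α S * u (b * a)) := by
      rw [← mul_assoc (α S), ← mul_assoc, ← map_mul, ← (hcomm (S * c a⁻¹) b).eq, mul_comm S,
        map_mul, map_mul, mul_assoc, mul_assoc]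
    rw [e1, e2] at h4
    rw [mul_sub, mul_sub, h4, sub_self]
  have h5 : α (c a) * α (c a⁻¹) = 1 := by rw [← hc, mul_inv_cancel, hc1]
  calc α S * (u (a * b) - u (b * a))
      = α (c a) * (α (c a⁻¹) * (α S * (u (a * b) - u (b * a)))) := by
        rw [← mul_assoc (α (c a)), h5, one_mul]
    _ = 0 := by rw [h3, mul_zero]

theorem key_scalar
    (hcomm : ∀ r g, Commute (α r) (u g))
    (hc1 : α (c 1) = 1) (hc : ∀ g h, α (c (g * h)) = α (c g) * α (c h))
    (hτ : ∀ g, u g + α (c g) * u g⁻¹ = α (τ g))
    (hπτ : ∀ g, π (τ g) - (ρ g).trace ∈ I)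
    (hker : ∀ x, α x = 0 → π x ∈ I)
    (hspan : Submodule.span T (Set.range ρ) = ⊤)
    {ι : Type*} (s : Finset ι) (r : ι → R) (g : ι → G)
    (hrel : ∑ i ∈ s, α (r i) * u (g i) = 0) :
    ∑ i ∈ s, π (r i) * (ρ (g i)).trace ∈ I := by
  set S := ∑ i ∈ s, r i * τ (g i) with hS
  have hkill := key_commutator_kills α u c τ hcomm hc1 hc hτ s r g hrel
  -- traces of commutators times a third element
  have h1 : ∀ a b d : G, π S * ((ρ a * ρ b * ρ d).trace - (ρ b * ρ a * ρ d).trace) ∈ I := by
    intro a b d
    have e1 : α S * (u (a * b * d) - u (b * a * d)) = 0 := by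
      rw [map_mul u (a * b) d, map_mul u (b * a) d, ← sub_mul, ← mul_assoc, hkill, zero_mul]
    have e2 : α S * (u (a * b * d)⁻¹ - u (b * a * d)⁻¹) = 0 := by
      rw [_root_.mul_inv_rev, _root_.mul_inv_rev, _root_.mul_inv_rev, _root_.mul_inv_rev,
        map_mul u d⁻¹ (b⁻¹ * a⁻¹), map_mul u d⁻¹ (a⁻¹ * b⁻¹), ← mul_sub, ← mul_assoc,
        (hcomm S d⁻¹).eq, mul_assoc, hkill, mul_zero]
    have e3 : α (c (a * b * d)) = α (c (b * a * d)) := by
      rw [hc, hc, hc, hc, ← map_mul α (c a), mul_comm (c a), map_mul]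
    have e4 : α (S * (τ (a * b * d) - τ (b * a * d))) = 0 := by
      rw [map_mul, map_sub, ← hτ, ← hτ, ← e3, add_sub_add_comm, ← mul_sub, mul_add, e1, zero_add,
        ← mul_assoc, ← map_mul, mul_comm S, map_mul, mul_assoc, e2, mul_zero]
    have e5 := hker _ e4
    rw [map_mul, map_sub] at e5
    have e6 : π S * ((π (τ (a * b * d)) - (ρ (a * b * d)).trace)
        - (π (τ (b * a * d)) - (ρ (b * a * d)).trace)) ∈ I :=
      I.mul_mem_left _ (I.sub_mem (hπτ _) (hπτ _))
    have := I.sub_mem e5 e6
    simp only [map_mul ρ] at this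
    convert this using 1
    ring
  have h2 : ∀ A B C : Matrix (Fin 2) (Fin 2) T,
      π S * ((A * B * C).trace - (B * A * C).trace) ∈ I := by
    intro A B C
    have hA : A ∈ Submodule.span T (Set.range ρ) := by rw [hspan]; trivial
    have hB : B ∈ Submodule.span T (Set.range ρ) := by rw [hspan]; trivial
    have hC : C ∈ Submodule.span T (Set.range ρ) := by rw [hspan]; trivial
    induction hA using Submodule.span_induction with
    | zero => simp
    | add x y _ _ hx hy =>
      simp only [add_mul, mul_add, Matrix.trace_add, add_sub_add_comm]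
      exact I.add_mem hx hy
    | smul t x _ hx =>
      simp only [smul_mul_assoc, mul_smul_comm, Matrix.trace_smul, smul_eq_mul, ← mul_sub]
      rw [mul_left_comm]
      exact I.mul_mem_left t hx
    | mem x hx =>
      obtain ⟨a, rfl⟩ := hx
      induction hB using Submodule.span_induction with
      | zero => simp
      | add x y _ _ hx hy =>
        simp only [add_mul, mul_add, Matrix.trace_add, add_sub_add_comm]
        exact I.add_mem hx hy
      | smul t x _ hx =>
        simp only [smul_mul_assoc, mul_smul_comm, Matrix.trace_smul, smul_eq_mul, ← mul_sub]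
        rw [mul_left_comm]
        exact I.mul_mem_left t hx
      | mem x hx =>
        obtain ⟨b, rfl⟩ := hx
        induction hC using Submodule.span_induction with
        | zero => simp
        | add x y _ _ hx hy =>
          simp only [mul_add, Matrix.trace_add, add_sub_add_comm]
          exact I.add_mem hx hy
        | smul t x _ hx =>
          simp only [mul_smul_comm, Matrix.trace_smul, smul_eq_mul, ← mul_sub]
          rw [mul_left_comm]
          exact I.mul_mem_left t hx
        | mem x hx =>
          obtain ⟨d, rfl⟩ := hx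
          exact h1 a b d
  have h3 : π S ∈ I := by
    have := h2 (Matrix.single 0 1 1) (Matrix.single 1 0 1) (Matrix.single 0 0 1)
    rw [Matrix.single_mul_single_same, Matrix.single_mul_single_same] at this
    simpa [Matrix.single_mul_single_of_ne] using this
  have h4 : ∑ i ∈ s, π (r i) * (π (τ (g i)) - (ρ (g i)).trace) ∈ I :=
    I.sum_mem fun i _ => I.mul_mem_left _ (hπτ _)
  have := I.sub_mem h3 h4
  convert this using 1
  simp only [hS, map_sum, map_mul, mul_sub, Finset.sum_sub_distrib]
  abel

theorem key_relation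
    (hcomm : ∀ r g, Commute (α r) (u g))
    (hc1 : α (c 1) = 1) (hc : ∀ g h, α (c (g * h)) = α (c g) * α (c h))
    (hτ : ∀ g, u g + α (c g) * u g⁻¹ = α (τ g))
    (hπτ : ∀ g, π (τ g) - (ρ g).trace ∈ I)
    (hker : ∀ x, α x = 0 → π x ∈ I)
    (hspan : Submodule.span T (Set.range ρ) = ⊤)
    {ι : Type*} (s : Finset ι) (r : ι → R) (g : ι → G)
    (hrel : ∑ i ∈ s, α (r i) * u (g i) = 0) (a b : Fin 2) :
    (∑ i ∈ s, π (r i) • ρ (g i)) a b ∈ I := by
  have h1 : ∀ B : Matrix (Fin 2) (Fin 2) T,
      ((∑ i ∈ s, π (r i) • ρ (g i)) * B).trace ∈ I := by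
    intro B
    have hB : B ∈ Submodule.span T (Set.range ρ) := by rw [hspan]; trivial
    induction hB using Submodule.span_induction with
    | mem x hx =>
      obtain ⟨h, rfl⟩ := hx
      have hrel' : ∑ i ∈ s, α (r i) * u (g i * h) = 0 := by
        simp only [map_mul, ← mul_assoc]
        rw [← Finset.sum_mul, hrel, zero_mul]
      have := key_scalar α π I u ρ c τ hcomm hc1 hc hτ hπτ hker hspan s r
        (fun i => g i * h) hrel'
      simpa [Finset.sum_mul, Matrix.trace_sum, smul_mul_assoc, Matrix.trace_smul] using this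
    | zero => simp
    | add x y _ _ hx hy =>
      rw [mul_add, Matrix.trace_add]
      exact I.add_mem hx hy
    | smul t x _ hx =>
      rw [mul_smul_comm, Matrix.trace_smul, smul_eq_mul]
      exact I.mul_mem_left t hx
  have := h1 (Matrix.single b a 1)
  rwa [Matrix.trace_mul_comm, Matrix.trace_single_mul, one_smul] at this

end Key

end FLTA.HeckeDatum
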