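import Mathlib.LinearAlgebra.Matrix.Trace
import Mathlib.LinearAlgebra.Matrix.Charpoly.Coeff
import Mathlib.Tactic.NoncommRing

/-!
Powers of an element satisfying a quadratic relation with central coefficients.
-/

set_option autoImplicit false

namespace FLTA.HeckeDatum

open Matrix

variable {R : Type*} [CommRing R]

/-- The sequence `2, T, T² - 2l, …` of traces of powers. -/
def lucasSeq (T l : R) : ℕ → R
  | 0 => 2
  | 1 => T
  | n + 2 => T * lucasSeq T l (n + 1) - l * lucasSeq T l n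

theorem map_lucasSeq {S : Type*} [CommRing S] (f : R →+* S) (T l : R) :
    ∀ n, f (lucasSeq T l n) = lucasSeq (f T) (f l) n
  | 0 => by simp [lucasSeq, map_ofNat]
  | 1 => by simp [lucasSeq]
  | n + 2 => by
    simp only [lucasSeq, map_sub, map_mul, map_lucasSeq f T l (n + 1), map_lucasSeq f T l n]

theorem pow_add_pow_eq_lucasSeq {G E : Type*} [Group G] [Ring E] (α : R →+* E) (u : G →* E)
    (τ : G) (T l : R) (hcomm : ∀ r g, Commute (α r) (u g))
    (h : u τ + α l * u τ⁻¹ = α T) :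
    ∀ n : ℕ, u (τ ^ n) + α (l ^ n) * u (τ ^ n)⁻¹ = α (lucasSeq T l n)
  | 0 => by simp [lucasSeq, map_ofNat, one_add_one_eq_two]
  | 1 => by simpa [lucasSeq] using h
  | n + 2 => by
    have h1 := pow_add_pow_eq_lucasSeq α u τ T l hcomm h (n + 1)
    have h0 := pow_add_pow_eq_lucasSeq α u τ T l hcomm h n
    simp only [lucasSeq, map_sub, map_mul, ← h1, ← h0, ← h]
    have hinv : u τ⁻¹ * u τ = 1 := by rw [← map_mul, inv_mul_cancel, map_one]
    have hinv' : u τ * u τ⁻¹ = 1 := by rw [← map_mul, mul_inv_cancel, map_one]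
    simp only [pow_succ', _root_.mul_inv_rev, map_mul]
    have c1 := hcomm (l ^ n) τ
    have c2 := hcomm l τ
    have c3 := hcomm l τ⁻¹
    have c4 := hcomm (l ^ n) τ⁻¹
    have c6 : u τ * u (τ ^ n)⁻¹ = u (τ ^ n)⁻¹ * u τ := by
      rw [← map_mul, ← map_mul, (((Commute.refl τ).pow_right n).inv_right).eq]
    have c7 : u τ⁻¹ * u (τ ^ n)⁻¹ = u (τ ^ n)⁻¹ * u τ⁻¹ := by
      rw [← map_mul, ← map_mul, ((((Commute.refl τ).pow_right n).inv_right).inv_left).eq]
    have e1 : u τ * (α l * α (l ^ n) * (u (τ ^ n)⁻¹ * u τ⁻¹))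
        = α l * α (l ^ n) * u (τ ^ n)⁻¹ := by
      rw [← mul_assoc, ← map_mul, ← (hcomm (l * l ^ n) τ).eq, mul_assoc, ← mul_assoc (u τ), c6,
        mul_assoc (u (τ ^ n)⁻¹), hinv', mul_one]
    have e2 : α l * u τ⁻¹ * (u τ * u (τ ^ n)) = α l * u (τ ^ n) := by
      rw [mul_assoc, ← mul_assoc (u τ⁻¹), hinv, one_mul]
    have e3 : α l * u τ⁻¹ * (α l * α (l ^ n) * (u (τ ^ n)⁻¹ * u τ⁻¹))
        = α l * (α l * α (l ^ n)) * (u (τ ^ n)⁻¹ * u τ⁻¹ * u τ⁻¹) := by
      rw [mul_assoc (α l) (u τ⁻¹), ← mul_assoc (u τ⁻¹), ← map_mul α l (l ^ n),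
        ← (hcomm (l * l ^ n) τ⁻¹).eq, mul_assoc (α (l * l ^ n)), ← mul_assoc (u τ⁻¹), c7,
        ← mul_assoc]
    simp only [add_mul, mul_add, e1, e2, e3]
    simp only [mul_assoc]
    abel

theorem trace_pow_eq_lucasSeq (M : Matrix (Fin 2) (Fin 2) R) (T l : R)
    (hT : M.trace = T) (hl : M.det = l) : ∀ n : ℕ, (M ^ n).trace = lucasSeq T l n
  | 0 => by simp [lucasSeq]
  | 1 => by simp [lucasSeq, hT]
  | n + 2 => by
    have hM : M * M = T • M - l • (1 : Matrix (Fin 2) (Fin 2) R) := by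
      subst hT hl
      ext i j
      fin_cases i <;> fin_cases j <;>
        simp [Matrix.mul_apply, Fin.sum_univ_two, Matrix.trace_fin_two, Matrix.det_fin_two] <;> ring
    rw [pow_succ, pow_succ, mul_assoc, hM, mul_sub, mul_smul_comm, mul_smul_comm, mul_one,
      ← pow_succ, Matrix.trace_sub, Matrix.trace_smul, Matrix.trace_smul,
      trace_pow_eq_lucasSeq M T l hT hl (n + 1), trace_pow_eq_lucasSeq M T l hT hl n, lucasSeq]
    rfl

end FLTA.HeckeDatum
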