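import Mathlib.RingTheory.Filtration
import Fermat.Prelude.Def_CuspForm_HeckeGaloisRepDatum
import Fermat.Agent.GaloisReps.TateData
import Fermat.Agent.Density.Frobenius
import Fermat.Agent.Galois.Cyclotomic
import Fermat.Agent.RepTheory.Carayol
import Fermat.Agent.HeckeDatum.Key
import Fermat.Agent.HeckeDatum.Recursion

/-!
Relations of the action of Galois and Hecke on the `p^k`-torsion of the Jacobian are relations
of the representation of a Hecke–Galois datum modulo a power of the maximal ideal.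
-/

set_option autoImplicit false

noncomputable section

open scoped Matrix

namespace FLTA.HeckeDatum

open FLTA.GaloisReps (TateData FullHecke)

local notation "Γ" => AlgebraicClosure ℚ ≃ₐ[ℚ] AlgebraicClosure ℚ

variable {p N : ℕ} [NeZero N] [Fact p.Prime]

/-- The inclusion of a Hecke algebra in the full one. -/
def toFullHecke (N : ℕ) [NeZero N] (S : Set ℕ) :
    ↥(CuspForm.heckeAlgebra N 2 S) →+* FullHecke N :=
  (Subalgebra.inclusion (CuspForm.heckeAlgebra_mono (Set.empty_subset S))).toRingHom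

theorem toFullHecke_injective (S : Set ℕ) : Function.Injective (toFullHecke N S) :=
  Subalgebra.inclusion_injective (CuspForm.heckeAlgebra_mono (Set.empty_subset S))

/-- The Galois action modulo `p ^ k`. -/
def galModPow (D : TateData N p) (k : ℕ) : Γ →* Matrix (Fin D.r) (Fin D.r) (ZMod (p ^ k)) :=
  ((PadicInt.toZModPow k).mapMatrix.toMonoidHom).comp D.rho

/-- The Hecke action modulo `p ^ k`. -/
def heckeModPow (D : TateData N p) (S : Set ℕ) (k : ℕ) :
    ↥(CuspForm.heckeAlgebra N 2 S) →+* Matrix (Fin D.r) (Fin D.r) (ZMod (p ^ k)) :=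
  (Int.castRingHom (ZMod (p ^ k))).mapMatrix.comp (D.hecke.comp (toFullHecke N S))

theorem heckeModPow_commute (D : TateData N p) (S : Set ℕ) (k : ℕ)
    (t : ↥(CuspForm.heckeAlgebra N 2 S)) (σ : Γ) :
    Commute (heckeModPow D S k t) (galModPow D k σ) := by
  have h := ((D.commute σ (toFullHecke N S t)).symm).map (PadicInt.toZModPow (p := p) k).mapMatrix
  have e : heckeModPow D S k t
      = (PadicInt.toZModPow (p := p) k).mapMatrix ((D.hecke (toFullHecke N S t)).map Int.cast) := by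
    ext i j
    simp [heckeModPow, RingHom.mapMatrix_apply, Matrix.map_apply]
  rw [e]
  exact h

/-- The kernel of the Hecke action modulo `p ^ k` is small for large `k`. -/
theorem exists_heckeModPow_ker (D : TateData N p)
    (S : Set ℕ) (n : ℕ) :
    ∃ k₀, ∀ k ≥ k₀, ∀ t, heckeModPow D S k t = 0 → ∃ z, t = (p ^ n : ℕ) • z := by
  let f : ↥(CuspForm.heckeAlgebra N 2 S) →ₗ[ℤ] Matrix (Fin D.r) (Fin D.r) ℤ :=
    (D.hecke.comp (toFullHecke N S)).toAddMonoidHom.toIntLinearMap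
  obtain ⟨c, hc⟩ := Ideal.exists_pow_inf_eq_pow_smul (Ideal.span {(p : ℤ)}) (LinearMap.range f)
  refine ⟨c + n, fun k hk t ht => ?_⟩
  have h1 : f t ∈ (Ideal.span {(p : ℤ)}) ^ k • (⊤ : Submodule ℤ (Matrix (Fin D.r) (Fin D.r) ℤ))
      ⊓ LinearMap.range f := by
    refine ⟨?_, LinearMap.mem_range_self f t⟩
    rw [Ideal.span_singleton_pow, SetLike.mem_coe, Submodule.ideal_span_singleton_smul,
      Submodule.mem_smul_pointwise_iff_exists]
    have hd : ∀ i j, ((p : ℤ) ^ k) ∣ f t i j := by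
      intro i j
      have := congrFun (congrFun ht i) j
      simp only [heckeModPow, RingHom.coe_comp, Function.comp_apply, RingHom.mapMatrix_apply,
        Matrix.map_apply, Matrix.zero_apply, Int.coe_castRingHom,
        ZMod.intCast_zmod_eq_zero_iff_dvd, Nat.cast_pow] at this
      exact this
    choose y hy using hd
    exact ⟨Matrix.of y, trivial, by ext i j; simp [hy i j]⟩
  rw [hc k (by omega)] at h1
  have h2 : (Ideal.span {(p : ℤ)}) ^ (k - c) •
      ((Ideal.span {(p : ℤ)}) ^ c • (⊤ : Submodule ℤ (Matrix (Fin D.r) (Fin D.r) ℤ))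
        ⊓ LinearMap.range f) ≤ (Ideal.span {(p : ℤ)}) ^ n • LinearMap.range f :=
    Submodule.smul_mono (Ideal.pow_le_pow_right (by omega)) inf_le_right
  have h3 := h2 h1
  rw [Ideal.span_singleton_pow, Submodule.ideal_span_singleton_smul,
    Submodule.mem_smul_pointwise_iff_exists] at h3
  obtain ⟨_, ⟨z, rfl⟩, hz⟩ := h3
  refine ⟨z, ?_⟩
  apply (D.hecke_injective.comp (toFullHecke_injective S))
  have hz' : f ((p ^ n : ℕ) • z) = f t := by
    rw [map_nsmul, ← hz, ← natCast_zsmul, Nat.cast_pow]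
  exact hz'.symm

/-- An exponent describing the action on a root of unity. -/
theorem exists_apply_eq_pow {ζ : AlgebraicClosure ℚ} {m : ℕ} [NeZero m]
    (hζ : IsPrimitiveRoot ζ m) (σ : Γ) : ∃ a : ℕ, σ ζ = ζ ^ a := by
  obtain ⟨i, -, hi⟩ := hζ.eq_pow_of_pow_eq_one
    (show σ ζ ^ m = 1 by rw [← map_pow, hζ.pow_eq_one, map_one])
  exact ⟨i, hi.symm⟩

variable {S : Finset ℕ} {𝒪 : Type} [CommRing 𝒪] [IsDomain 𝒪] [IsDiscreteValuationRing 𝒪]
  [IsAdicComplete (IsLocalRing.maximalIdeal 𝒪) 𝒪]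
  {θ : CuspForm.heckeAlgebra N 2 (↑S : Set ℕ) →+* IsLocalRing.ResidueField 𝒪}
  {T : Type} [CommRing T] [IsLocalRing T] [IsNoetherianRing T]
  [IsAdicComplete (IsLocalRing.maximalIdeal T) T] [Algebra 𝒪 T] [IsLocalHom (algebraMap 𝒪 T)]
  [Module.Finite 𝒪 T] [Module.Free 𝒪 T]

omit [Fact p.Prime] in
theorem natCast_mem_maximalIdeal (hp𝒪 : (p : 𝒪) ∈ IsLocalRing.maximalIdeal 𝒪) :
    (p : T) ∈ IsLocalRing.maximalIdeal T := by
  rw [← map_natCast (algebraMap 𝒪 T) p]
  exact map_nonunit (algebraMap 𝒪 T) _ hp𝒪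

omit [IsNoetherianRing T] [IsAdicComplete (IsLocalRing.maximalIdeal T) T] in
/-- A relation in the torsion of the Jacobian gives a relation modulo `m ^ n` of a residually
absolutely irreducible representation with the Frobenius polynomials of a Hecke character. -/
theorem exists_level_relation_of_charpoly (D : TateData N p)
    (hpT : (p : T) ∈ IsLocalRing.maximalIdeal T) (hpS : p ∈ S)
    (hNS : ∀ q : ℕ, q.Prime → q ∣ N → q ∈ S)
    (π : CuspForm.heckeAlgebra N 2 (↑S : Set ℕ) →+* T) (ρ : GaloisRepAdic T)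
    (hfrob : ∀ (ℓ : ℕ) (hℓ : ℓ.Prime) (hℓN : ¬ ℓ ∣ N) (hℓS : ℓ ∉ (↑S : Set ℕ)),
      ∀ A : ValuationSubring (AlgebraicClosure ℚ), A.LiesOverPrime ℓ →
        ∀ σ : Γ, A.IsFrobeniusAt σ ℓ →
          LinearMap.charpoly (ρ.ρ σ) = Polynomial.X ^ 2 -
            Polynomial.C (π (CuspForm.heckeAlgebra.T hℓ hℓN hℓS)) * Polynomial.X +
            Polynomial.C ((ℓ : T)))
    (hirr : ρ.residual.IsAbsolutelyIrreducible) (n : ℕ) :
    ∃ k : ℕ, ∀ (ι : Type) (s : Finset ι)
      (r : ι → ↥(CuspForm.heckeAlgebra N 2 (↑S : Set ℕ))) (g : ι → Γ),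
      ∑ i ∈ s, heckeModPow D (↑S) k (r i) * galModPow D k (g i) = 0 →
      ∀ v : ρ.V, ∑ i ∈ s, π (r i) • ρ.ρ (g i) v ∈
        (IsLocalRing.maximalIdeal T ^ n) • (⊤ : Submodule T ρ.V) := by
  have hpp : p.Prime := Fact.out
  obtain ⟨k, hk⟩ := exists_heckeModPow_ker D (↑S : Set ℕ) n
  refine ⟨k, fun ι s r g hrel v => ?_⟩
  set I := IsLocalRing.maximalIdeal T ^ n with hI
  let b := Module.finBasisOfFinrankEq T ρ.V ρ.finrank_eq
  let R := FLTA.RepTheory.matHom b ρ.ρ
  have hker : ∀ x, heckeModPow D (↑S) k x = 0 → π x ∈ I := by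
    intro x hx
    obtain ⟨z, rfl⟩ := hk k le_rfl x hx
    rw [map_nsmul, nsmul_eq_mul, Nat.cast_pow]
    exact I.mul_mem_right _ (Ideal.pow_mem_pow hpT n)
  -- the level
  obtain ⟨L₁, hL₁, hu⟩ := D.isContinuous k
  obtain ⟨L₂, hL₂, hv⟩ := ρ.isAdicContinuous n
  haveI : NeZero (p ^ k) := ⟨pow_ne_zero k hpp.ne_zero⟩
  obtain ⟨ζ, hζ⟩ : ∃ ζ : AlgebraicClosure ℚ, IsPrimitiveRoot ζ (p ^ k) :=
    HasEnoughRootsOfUnity.exists_primitiveRoot (AlgebraicClosure ℚ) (p ^ k)
  let L₃ : IntermediateField ℚ (AlgebraicClosure ℚ) := IntermediateField.adjoin ℚ {ζ}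
  haveI : FiniteDimensional ℚ L₃ :=
    IntermediateField.adjoin.finiteDimensional ((AlgebraicClosure.isAlgebraic ℚ).isAlgebraic ζ).isIntegral
  choose c hc using exists_apply_eq_pow hζ
  let cR : Γ → ↥(CuspForm.heckeAlgebra N 2 (↑S : Set ℕ)) := fun σ => (c σ : ℕ)
  have hcast : ∀ a a' : ℕ, ζ ^ a = ζ ^ a' →
      (a : Matrix (Fin D.r) (Fin D.r) (ZMod (p ^ k))) = a' := by
    intro a a' h
    have : (a : ZMod (p ^ k)) = a' :=
      (ZMod.natCast_eq_natCast_iff _ _ _).2 ((hζ.isOfFinOrder (NeZero.ne _)).pow_inj_mod.1 h |>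
        fun h' => by rw [← hζ.eq_orderOf] at h'; exact h')
    rw [← map_natCast (Matrix.scalar (Fin D.r)), this, map_natCast]
  have hc1 : heckeModPow D (↑S) k (cR 1) = 1 := by
    rw [map_natCast, hcast (c 1) 1 (by rw [← hc, pow_one]; rfl), Nat.cast_one]
  have hcmul : ∀ σ τ, heckeModPow D (↑S) k (cR (σ * τ))
      = heckeModPow D (↑S) k (cR σ) * heckeModPow D (↑S) k (cR τ) := by
    intro σ τ
    simp only [cR, map_natCast]
    rw [← Nat.cast_mul]
    apply hcast
    rw [← hc]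
    show σ (τ ζ) = _
    rw [hc τ, map_pow, hc σ, ← pow_mul]
  have hspan : Submodule.span T (Set.range R) = ⊤ := by
    have h := (FLTA.RepTheory.spans_iff_residual_isAbsolutelyIrreducible ρ).2 hirr
    have e : Set.range R = (LinearMap.toMatrix b b).toLinearMap '' Set.range ρ.ρ := by
      rw [← Set.range_comp]; rfl
    rw [e, ← Submodule.map_span, h, Submodule.map_top, LinearMap.range_eq_top]
    exact (LinearMap.toMatrix b b).surjective
  -- the comparison at every element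
  have key : ∀ σ : Γ, ∃ t : ↥(CuspForm.heckeAlgebra N 2 (↑S : Set ℕ)),
      galModPow D k σ + heckeModPow D (↑S) k (cR σ) * galModPow D k σ⁻¹
        = heckeModPow D (↑S) k t ∧ π t - (R σ).trace ∈ I := by
    intro σ
    obtain ⟨ℓ, hℓ, hℓS, A, hA, τ, hτ, e, he⟩ :=
      FLTA.Density.exists_frobenius_pow_eq (L₁ ⊔ L₂ ⊔ L₃) S σ
    have hℓN : ¬ ℓ ∣ N := fun h => hℓS (hNS ℓ hℓ h)
    have hℓp : ℓ ≠ p := fun h => hℓS (h ▸ hpS)
    have hℓS' : ℓ ∉ (↑S : Set ℕ) := hℓS
    -- on the torsion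
    have hfix : ∀ x ∈ L₁ ⊔ L₂ ⊔ L₃, ((τ ^ e)⁻¹ * σ) x = x := fun x hx => by
      show (τ ^ e)⁻¹ (σ x) = x
      rw [← he x hx]
      exact (τ ^ e).symm_apply_apply x
    have hu1 : ∀ h : Γ, (∀ x ∈ L₁ ⊔ L₂ ⊔ L₃, h x = x) → galModPow D k h = 1 := fun h hh =>
      hu h fun x hx => hh x ((le_sup_left.trans le_sup_left : L₁ ≤ L₁ ⊔ L₂ ⊔ L₃) hx)
    have hgal : galModPow D k σ = galModPow D k (τ ^ e) := by
      conv_lhs => rw [show σ = τ ^ e * ((τ ^ e)⁻¹ * σ) by group]
      rw [map_mul, hu1 _ hfix, mul_one]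
    have hgal' : galModPow D k σ⁻¹ = galModPow D k (τ ^ e)⁻¹ := by
      have hfix' : ∀ x ∈ L₁ ⊔ L₂ ⊔ L₃, ((τ ^ e)⁻¹ * σ)⁻¹ x = x := fun x hx => by
        conv_lhs => rw [← hfix x hx]
        exact ((τ ^ e)⁻¹ * σ).symm_apply_apply x
      conv_lhs => rw [show σ⁻¹ = ((τ ^ e)⁻¹ * σ)⁻¹ * (τ ^ e)⁻¹ by group]
      rw [map_mul, hu1 _ hfix', one_mul]
    have hquad : galModPow D k τ + heckeModPow D (↑S) k (ℓ : ℕ) * galModPow D k τ⁻¹
        = heckeModPow D (↑S) k (CuspForm.heckeAlgebra.T hℓ hℓN hℓS') := by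
      have h := congrArg (PadicInt.toZModPow (p := p) k).mapMatrix
        (D.frobenius ℓ hℓ hℓN hℓp A hA τ hτ)
      simp only [map_add, map_sub, map_mul, map_zero, map_natCast] at h
      have hT : (PadicInt.toZModPow (p := p) k).mapMatrix
          ((D.hecke (CuspForm.heckeAlgebra.T hℓ hℓN (Set.notMem_empty ℓ))).map Int.cast)
          = heckeModPow D (↑S) k (CuspForm.heckeAlgebra.T hℓ hℓN hℓS') := by
        ext i j
        simp [heckeModPow, RingHom.mapMatrix_apply, Matrix.map_apply]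
        rfl
      rw [hT] at h
      change galModPow D k τ * galModPow D k τ - _ * galModPow D k τ + _ = 0 at h
      have h2 := congrArg (· * galModPow D k τ⁻¹) h
      simp only [add_mul, sub_mul, zero_mul, mul_assoc, ← map_mul, mul_inv_cancel, map_one,
        mul_one] at h2
      rw [map_natCast, ← sub_eq_zero, ← h2]
      abel
    refine ⟨lucasSeq (CuspForm.heckeAlgebra.T hℓ hℓN hℓS') (ℓ : ℕ) e, ?_, ?_⟩
    · rw [hgal, hgal', ← pow_add_pow_eq_lucasSeq (heckeModPow D (↑S) k) (galModPow D k) τ _ _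
        (heckeModPow_commute D _ k) hquad e]
      congr 2
      simp only [cR, map_natCast, map_pow]
      rw [← Nat.cast_pow]
      apply hcast
      have hζL : ζ ∈ L₁ ⊔ L₂ ⊔ L₃ := (le_sup_right : L₃ ≤ _)
        (IntermediateField.mem_adjoin_simple_self ℚ ζ)
      rw [← hc, ← he ζ hζL]
      have hℓk : ¬ ℓ ∣ p ^ k := fun h => hℓp ((Nat.prime_dvd_prime_iff_eq hℓ hpp).1
        (hℓ.dvd_of_dvd_pow h))
      clear he hfix hgal hgal'
      induction e with
      | zero => simp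
      | succ e ih =>
        rw [pow_succ']
        show τ ((τ ^ e) ζ) = _
        rw [ih, map_pow, FLTA.Galois.frobenius_apply_rootOfUnity hℓ hA hτ hℓk hζ.pow_eq_one,
          ← pow_mul, pow_succ']
    · have hR : ((Ideal.Quotient.mk I).mapMatrix (R ((τ ^ e)⁻¹ * σ))) = 1 := by
        have h2 := hv ((τ ^ e)⁻¹ * σ) fun x hx =>
          hfix x ((le_sup_right.trans le_sup_left : L₂ ≤ L₁ ⊔ L₂ ⊔ L₃) hx)
        ext i j
        have h3 : b.coord i (ρ.ρ ((τ ^ e)⁻¹ * σ) (b j) - b j) ∈ I := by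
          have := Submodule.mem_map_of_mem (f := b.coord i) (h2 (b j))
          rw [Submodule.map_smul''] at this
          exact (Submodule.smul_mono le_rfl le_top).trans_eq
            (by rw [smul_eq_mul, Ideal.mul_top]) this
        simp only [R, FLTA.RepTheory.matHom_apply, RingHom.mapMatrix_apply, Matrix.map_apply,
          LinearMap.toMatrix_apply]
        rw [map_sub, Module.Basis.coord_apply, Module.Basis.coord_apply,
          ← Ideal.Quotient.eq] at h3
        rw [h3, Module.Basis.repr_self, Finsupp.single_apply, Matrix.one_apply]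
        by_cases hij : i = j <;> simp [hij, Ne.symm, eq_comm]
      have hσ : (Ideal.Quotient.mk I) (R σ).trace = Ideal.Quotient.mk I (R (τ ^ e)).trace := by
        rw [AddMonoidHom.map_trace, AddMonoidHom.map_trace]
        show ((Ideal.Quotient.mk I).mapMatrix (R σ)).trace
          = ((Ideal.Quotient.mk I).mapMatrix (R (τ ^ e))).trace
        conv_lhs => rw [show σ = τ ^ e * ((τ ^ e)⁻¹ * σ) by group]
        rw [map_mul R, map_mul, hR, mul_one]
      have hfrob := hfrob ℓ hℓ hℓN hℓS' A hA τ hτ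
      obtain ⟨htr, hdet⟩ := FLTA.RepTheory.trace_eq_of_charpoly ρ.finrank_eq hfrob
      rw [← Ideal.Quotient.eq, hσ]
      congr 1
      rw [map_lucasSeq, map_natCast, map_pow]
      symm
      apply trace_pow_eq_lucasSeq
      · simp only [R, FLTA.RepTheory.matHom_trace]
        exact htr
      · simp only [R, FLTA.RepTheory.matHom_apply, LinearMap.det_toMatrix]
        exact hdet
  choose t ht using key
  have hmain := key_relation (heckeModPow D (↑S) k) π I (galModPow D k) R cR t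
    (heckeModPow_commute D _ k) hc1 hcmul (fun σ => (ht σ).1) (fun σ => (ht σ).2) hker hspan
    s r g hrel
  have hX : LinearMap.toMatrix b b (∑ i ∈ s, π (r i) • ρ.ρ (g i))
      = ∑ i ∈ s, π (r i) • R (g i) := by
    simp only [map_sum, map_smul, R, FLTA.RepTheory.matHom_apply]
  have hv' : (∑ i ∈ s, π (r i) • ρ.ρ (g i)) v ∈ I • (⊤ : Submodule T ρ.V) := by
    set X := ∑ i ∈ s, π (r i) • ρ.ρ (g i)
    rw [← b.sum_repr v, map_sum]
    refine Submodule.sum_mem _ fun j _ => ?_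
    rw [map_smul, ← b.sum_repr (X (b j))]
    refine Submodule.smul_mem _ _ (Submodule.sum_mem _ fun i _ => ?_)
    refine Submodule.smul_mem_smul ?_ Submodule.mem_top
    have := hmain i j
    rw [← hX, LinearMap.toMatrix_apply] at this
    exact this
  simpa [LinearMap.sum_apply] using hv'

/-- A relation in the torsion of the Jacobian gives a relation of the datum modulo `m ^ n`. -/
theorem exists_level_relation (D : TateData N p)
    (hp𝒪 : (p : 𝒪) ∈ IsLocalRing.maximalIdeal 𝒪) (hpS : p ∈ S)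
    (hNS : ∀ q : ℕ, q.Prime → q ∣ N → q ∈ S)
    (H : CuspForm.HeckeGaloisRepDatum N (↑S : Set ℕ) 𝒪 θ T) (n : ℕ) :
    ∃ k : ℕ, ∀ (ι : Type) (s : Finset ι)
      (r : ι → ↥(CuspForm.heckeAlgebra N 2 (↑S : Set ℕ))) (g : ι → Γ),
      ∑ i ∈ s, heckeModPow D (↑S) k (r i) * galModPow D k (g i) = 0 →
      ∀ v : H.ρ.V, ∑ i ∈ s, H.π (r i) • H.ρ.ρ (g i) v ∈
        (IsLocalRing.maximalIdeal T ^ n) • (⊤ : Submodule T H.ρ.V) :=
  exists_level_relation_of_charpoly D (natCast_mem_maximalIdeal hp𝒪) hpS hNS H.π H.ρ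
    H.charpoly_frob H.residual_absIrr n

end FLTA.HeckeDatum

end
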