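import Fermat.Prelude.Def_GaloisRep_LocalConditions
import Fermat.Agent.HeckeDatum.Relation

/-!
Exact transfer of relations to a Hecke–Galois datum, and its determinant.
-/

set_option autoImplicit false

noncomputable section

open scoped Matrix

namespace FLTA.HeckeDatum

open FLTA.GaloisReps (TateData FullHecke)

local notation "Γ" => AlgebraicClosure ℚ ≃ₐ[ℚ] AlgebraicClosure ℚ

/-- Krull intersection, for finite modules over Noetherian local rings. -/
theorem eq_zero_of_forall_mem_maximalIdeal_pow_smul {A V : Type*} [CommRing A] [IsLocalRing A]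
    [IsNoetherianRing A] [AddCommGroup V] [Module A V] [Module.Finite A V] {v : V}
    (h : ∀ n : ℕ, v ∈ (IsLocalRing.maximalIdeal A ^ n) • (⊤ : Submodule A V)) : v = 0 := by
  have h' : v ∈ ⨅ n : ℕ, (IsLocalRing.maximalIdeal A ^ n) • (⊤ : Submodule A V) :=
    Submodule.mem_iInf _ |>.2 h
  rwa [Ideal.iInf_pow_smul_eq_bot_of_isLocalRing _ (IsLocalRing.maximalIdeal.isMaximal A).ne_top,
    Submodule.mem_bot] at h'

variable {p N : ℕ} [NeZero N] {S : Finset ℕ} {𝒪 : Type} [CommRing 𝒪] [IsDomain 𝒪]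
  [IsDiscreteValuationRing 𝒪] [IsAdicComplete (IsLocalRing.maximalIdeal 𝒪) 𝒪]
  {θ : CuspForm.heckeAlgebra N 2 (↑S : Set ℕ) →+* IsLocalRing.ResidueField 𝒪}
  {T : Type} [CommRing T] [IsLocalRing T] [IsNoetherianRing T]
  [IsAdicComplete (IsLocalRing.maximalIdeal T) T] [Algebra 𝒪 T] [IsLocalHom (algebraMap 𝒪 T)]
  [Module.Finite 𝒪 T] [Module.Free 𝒪 T]

/-- A relation between the actions on the Tate module is a relation in the datum. -/
theorem transfer_relation [Fact p.Prime] (D : TateData N p)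
    (hp𝒪 : (p : 𝒪) ∈ IsLocalRing.maximalIdeal 𝒪) (hpS : p ∈ S)
    (hNS : ∀ q : ℕ, q.Prime → q ∣ N → q ∈ S)
    (H : CuspForm.HeckeGaloisRepDatum N (↑S : Set ℕ) 𝒪 θ T) {ι : Type} (s : Finset ι)
    (r : ι → ↥(CuspForm.heckeAlgebra N 2 (↑S : Set ℕ))) (g : ι → Γ)
    (hrel : ∑ i ∈ s, (D.hecke (toFullHecke N (↑S) (r i))).map (Int.cast : ℤ → ℤ_[p])
      * D.rho (g i) = 0) :
    ∑ i ∈ s, H.π (r i) • H.ρ.ρ (g i) = 0 := by
  refine LinearMap.ext fun v => eq_zero_of_forall_mem_maximalIdeal_pow_smul (A := T) fun n => ?_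
  obtain ⟨k, hk⟩ := exists_level_relation D hp𝒪 hpS hNS H n
  have h := congrArg (PadicInt.toZModPow (p := p) k).mapMatrix hrel
  simp only [map_sum, map_mul, map_zero] at h
  have hterm : ∀ t, (PadicInt.toZModPow (p := p) k).mapMatrix
      ((D.hecke (toFullHecke N (↑S) t)).map (Int.cast : ℤ → ℤ_[p]))
      = heckeModPow D (↑S : Set ℕ) k t := by
    intro t
    ext i j
    simp [heckeModPow, RingHom.mapMatrix_apply, Matrix.map_apply]
  simp only [hterm] at h
  simpa [LinearMap.sum_apply] using hk ι s r g h v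

/-- Inertia outside `S` acts trivially. -/
theorem isUnramifiedAt_of_tateData [Fact p.Prime] (D : TateData N p)
    (hp𝒪 : (p : 𝒪) ∈ IsLocalRing.maximalIdeal 𝒪) (hpS : p ∈ S)
    (hNS : ∀ q : ℕ, q.Prime → q ∣ N → q ∈ S)
    (H : CuspForm.HeckeGaloisRepDatum N (↑S : Set ℕ) 𝒪 θ T)
    (q : ℕ) (hq : q.Prime) (hqS : q ∉ S) : H.ρ.IsUnramifiedAt q := by
  intro P hP σ hσ
  have hu : D.rho σ = 1 :=
    D.unramified q hq (fun h => hqS (hNS q hq h)) (fun h => hqS (h ▸ hpS)) P hP σ hσ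
  have h := transfer_relation D hp𝒪 hpS hNS H (Finset.univ : Finset (Fin 2)) ![1, -1] ![σ, 1]
    (by simp only [Fin.sum_univ_two, Matrix.cons_val_zero, Matrix.cons_val_one,
          map_one, hu, map_neg, mul_one]
        ext i j
        by_cases hij : i = j <;> simp [Matrix.map_apply, Matrix.one_apply, hij])
  simpa [Fin.sum_univ_two, add_neg_eq_zero] using h

/-- The determinant of the representation of a datum is the cyclotomic character. -/
theorem detIsCyclotomic_of_datum (hp : p.Prime) (hp𝒪 : (p : 𝒪) ∈ IsLocalRing.maximalIdeal 𝒪)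
    (hpS : p ∈ S) (hNS : ∀ q : ℕ, q.Prime → q ∣ N → q ∈ S)
    (H : CuspForm.HeckeGaloisRepDatum N (↑S : Set ℕ) 𝒪 θ T) : H.ρ.DetIsCyclotomic p := by
  refine ⟨natCast_mem_maximalIdeal hp𝒪, fun n σ a ha => ?_⟩
  set Z : Ideal T := Ideal.span {((p ^ n : ℕ) : T)}
  rw [← Ideal.Quotient.eq_zero_iff_mem]
  have : ∀ M : ℕ, Ideal.Quotient.mk Z (LinearMap.det (H.ρ.ρ σ) - (a : T)) ∈
      (IsLocalRing.maximalIdeal T ^ M) • (⊤ : Submodule T (T ⧸ Z)) := by
    intro M
    obtain ⟨L₂, hL₂, hv⟩ := H.ρ.isAdicContinuous M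
    haveI : NeZero (p ^ n) := ⟨pow_ne_zero n hp.ne_zero⟩
    obtain ⟨ζ, hζ⟩ : ∃ ζ : AlgebraicClosure ℚ, IsPrimitiveRoot ζ (p ^ n) :=
      HasEnoughRootsOfUnity.exists_primitiveRoot (AlgebraicClosure ℚ) (p ^ n)
    let L₃ : IntermediateField ℚ (AlgebraicClosure ℚ) := IntermediateField.adjoin ℚ {ζ}
    haveI : FiniteDimensional ℚ L₃ := IntermediateField.adjoin.finiteDimensional
      ((AlgebraicClosure.isAlgebraic ℚ).isAlgebraic ζ).isIntegral
    obtain ⟨ℓ, hℓ, hℓS, A, hA, τ, hτ, e, he⟩ :=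
      FLTA.Density.exists_frobenius_pow_eq (L₂ ⊔ L₃) S σ
    have hℓN : ¬ ℓ ∣ N := fun h => hℓS (hNS ℓ hℓ h)
    have hℓp : ℓ ≠ p := fun h => hℓS (h ▸ hpS)
    have hℓn : ¬ ℓ ∣ p ^ n := fun h => hℓp ((Nat.prime_dvd_prime_iff_eq hℓ hp).1
      (hℓ.dvd_of_dvd_pow h))
    -- the exponent
    have hζe : ∀ j : ℕ, (τ ^ j) ζ = ζ ^ ℓ ^ j := by
      intro j
      induction j with
      | zero => simp
      | succ j ih =>
        rw [pow_succ']
        show τ ((τ ^ j) ζ) = _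
        rw [ih, map_pow, FLTA.Galois.frobenius_apply_rootOfUnity hℓ hA hτ hℓn hζ.pow_eq_one,
          ← pow_mul, pow_succ']
    have hmod : ((ℓ ^ e : ℕ) : T) - (a : T) ∈ Z := by
      have h : ζ ^ ℓ ^ e = ζ ^ a := by
        rw [← hζe, he ζ ((le_sup_right : L₃ ≤ _) (IntermediateField.mem_adjoin_simple_self ℚ ζ)),
          ha ζ hζ.pow_eq_one]
      have h' : ((ℓ ^ e : ℕ) : ZMod (p ^ n)) = a :=
        (ZMod.natCast_eq_natCast_iff _ _ _).2 ((hζ.isOfFinOrder (NeZero.ne _)).pow_inj_mod.1 h |>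
          fun h' => by rw [← hζ.eq_orderOf] at h'; exact h')
      have h'' : (((ℓ ^ e : ℕ) : ℤ) : ZMod (p ^ n)) = ((a : ℤ) : ZMod (p ^ n)) := by
        simpa using h'
      rw [ZMod.intCast_eq_intCast_iff_dvd_sub] at h''
      obtain ⟨d, hd⟩ := h''
      refine Ideal.mem_span_singleton'.2 ⟨-(d : T), ?_⟩
      have := congrArg (Int.cast : ℤ → T) hd
      push_cast at this
      push_cast
      linear_combination this
    -- the determinant modulo `m ^ M`
    set I := IsLocalRing.maximalIdeal T ^ M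
    let b := Module.finBasisOfFinrankEq T H.ρ.V H.ρ.finrank_eq
    have hdet : LinearMap.det (H.ρ.ρ σ) - (ℓ : T) ^ e ∈ I := by
      have hone : ∀ h : Γ, (∀ x ∈ L₂, h x = x) →
          Ideal.Quotient.mk I (LinearMap.det (H.ρ.ρ h)) = 1 := by
        intro h hh
        rw [← LinearMap.det_toMatrix b, RingHom.map_det]
        suffices (Ideal.Quotient.mk I).mapMatrix (LinearMap.toMatrix b b (H.ρ.ρ h)) = 1 by
          rw [this, Matrix.det_one]
        ext i j
        have h3 : b.coord i (H.ρ.ρ h (b j) - b j) ∈ I := by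
          have := Submodule.mem_map_of_mem (f := b.coord i) (hv h hh (b j))
          rw [Submodule.map_smul''] at this
          exact (Submodule.smul_mono le_rfl le_top).trans_eq
            (by rw [smul_eq_mul, Ideal.mul_top]) this
        simp only [RingHom.mapMatrix_apply, Matrix.map_apply, LinearMap.toMatrix_apply]
        rw [map_sub, Module.Basis.coord_apply, Module.Basis.coord_apply, ← Ideal.Quotient.eq] at h3
        rw [h3, Module.Basis.repr_self, Finsupp.single_apply, Matrix.one_apply]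
        by_cases hij : i = j <;> simp [hij, Ne.symm, eq_comm]
      have hfrob := H.charpoly_frob ℓ hℓ hℓN (show ℓ ∉ (↑S : Set ℕ) from hℓS) A hA τ hτ
      obtain ⟨-, hd⟩ := FLTA.RepTheory.trace_eq_of_charpoly H.ρ.finrank_eq hfrob
      rw [← Ideal.Quotient.eq, ← hd, ← map_pow, ← map_pow]
      have hfix : ∀ x ∈ L₂, ((τ ^ e)⁻¹ * σ) x = x := fun x hx => by
        show (τ ^ e)⁻¹ (σ x) = x
        rw [← he x ((le_sup_left : L₂ ≤ L₂ ⊔ L₃) hx)]
        exact (τ ^ e).symm_apply_apply x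
      conv_lhs => rw [show σ = τ ^ e * ((τ ^ e)⁻¹ * σ) by group]
      rw [map_mul, map_mul, map_mul, hone _ hfix, mul_one]
    -- conclusion
    have hsum : LinearMap.det (H.ρ.ρ σ) - (a : T) =
        (LinearMap.det (H.ρ.ρ σ) - (ℓ : T) ^ e) + (((ℓ ^ e : ℕ) : T) - (a : T)) := by
      push_cast; ring
    rw [hsum, map_add, Ideal.Quotient.eq_zero_iff_mem.2 hmod, add_zero]
    have h1 : Ideal.Quotient.mk Z (LinearMap.det (H.ρ.ρ σ) - (ℓ : T) ^ e)
        = (LinearMap.det (H.ρ.ρ σ) - (ℓ : T) ^ e) • (1 : T ⧸ Z) := by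
      rw [Algebra.smul_def, mul_one]; rfl
    rw [h1]
    exact Submodule.smul_mem_smul hdet Submodule.mem_top
  exact eq_zero_of_forall_mem_maximalIdeal_pow_smul this

/-- The determinant is trivial on inertia outside `p`. -/
theorem det_eq_one_of_mem_inertia (hp : p.Prime) (hp𝒪 : (p : 𝒪) ∈ IsLocalRing.maximalIdeal 𝒪)
    (hpS : p ∈ S) (hNS : ∀ q : ℕ, q.Prime → q ∣ N → q ∈ S)
    (H : CuspForm.HeckeGaloisRepDatum N (↑S : Set ℕ) 𝒪 θ T) {q : ℕ} (hq : q.Prime) (hqp : q ≠ p)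
    (P : ValuationSubring (AlgebraicClosure ℚ)) (hP : P.LiesOverPrime q) (σ : Γ)
    (hσ : σ ∈ P.inertiaSubgroupIn ℚ) : LinearMap.det (H.ρ.ρ σ) = 1 := by
  rw [← sub_eq_zero]
  refine eq_zero_of_forall_mem_maximalIdeal_pow_smul (A := T) fun n => ?_
  have hqn : ¬ q ∣ p ^ n := fun h => hqp ((Nat.prime_dvd_prime_iff_eq hq hp).1
    (hq.dvd_of_dvd_pow h))
  have h := (detIsCyclotomic_of_datum hp hp𝒪 hpS hNS H).2 n σ 1 fun μ hμ => by
    rw [pow_one]; exact FLTA.Galois.inertia_apply_rootOfUnity hq hP hσ hqn hμ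
  rw [Nat.cast_one, Nat.cast_pow] at h
  rw [smul_eq_mul, Ideal.mul_top]
  refine Ideal.span_le.2 ?_ h
  rw [Set.singleton_subset_iff]
  exact Ideal.pow_mem_pow (natCast_mem_maximalIdeal hp𝒪) n

end FLTA.HeckeDatum

end
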