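import Fermat.Agent.HeckeDatum.FlatModelDef
import Mathlib.FieldTheory.Galois.Infinite
import Mathlib.FieldTheory.IsAlgClosed.AlgebraicClosure
import Mathlib.RingTheory.Localization.Module
import Mathlib.RingTheory.PrincipalIdealDomain
import Mathlib.LinearAlgebra.FreeModule.PID
import Mathlib.RingTheory.IntegralClosure.IntegrallyClosed

/-!
# Finite flat models as orders of equivariant functions: basics

Facts about `ℤ₍p₎ = GaloisRep.ratLocalizedAt p`, pullback of functions, and Galois descent of linear
independence for equivariant functions.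
-/

set_option autoImplicit false

namespace FLTA.HeckeDatum.Flat

/-- The local ring of `ℤ` at `p`. -/
abbrev Rp (p : ℕ) : Type := GaloisRep.ratLocalizedAt p

variable (p : ℕ)

lemma intCast_mem_ratLocalizedAt (n : ℤ) : (n : ℚ) ∈ GaloisRep.ratLocalizedAt p :=
  intCast_mem _ n

lemma inv_den_mem (x : Rp p) : ((x : ℚ).den : ℚ)⁻¹ ∈ GaloisRep.ratLocalizedAt p := by
  have hx : ((x : ℚ).den).Coprime p := x.2
  show (((x : ℚ).den : ℚ)⁻¹).den.Coprime p
  rw [Rat.inv_natCast_den]
  split_ifs with h
  · exact absurd h (Rat.den_nz _)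
  · exact hx

theorem isFractionRing : IsFractionRing (Rp p) ℚ := by
  refine IsFractionRing.of_field (Rp p) ℚ fun z => ?_
  exact ⟨(z.num : Rp p), (z.den : Rp p), by
    rw [map_intCast, map_natCast]; exact (Rat.num_div_den z).symm⟩

theorem isPrincipalIdealRing : IsPrincipalIdealRing (Rp p) := by
  refine ⟨fun I => ?_⟩
  obtain ⟨g, hg⟩ := (IsPrincipalIdealRing.principal (I.comap (Int.castRingHom (Rp p)))).principal
  refine ⟨⟨(g : Rp p), le_antisymm (fun x hx => ?_) ?_⟩⟩
  · rw [Submodule.mem_span_singleton]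
    have hnum : (((x : ℚ).num : ℤ) : Rp p) ∈ I := by
      have hx' : (((x : ℚ).num : ℤ) : Rp p) = ((x : ℚ).den : Rp p) * x := by
        apply Subtype.ext
        push_cast
        exact (Rat.den_mul_eq_num _).symm
      rw [hx']
      exact I.mul_mem_left _ hx
    have hmem : (x : ℚ).num ∈ I.comap (Int.castRingHom (Rp p)) := hnum
    rw [hg, Submodule.mem_span_singleton] at hmem
    obtain ⟨a, ha⟩ := hmem
    refine ⟨(a : Rp p) * ⟨_, inv_den_mem p x⟩, Subtype.ext ?_⟩
    push_cast [smul_eq_mul]
    have h := congrArg (fun z : ℤ => (z : ℚ)) ha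
    simp only [smul_eq_mul, Int.cast_mul] at h
    calc (a : ℚ) * ((x : ℚ).den : ℚ)⁻¹ * (g : ℚ)
        = ((x : ℚ).num : ℚ) / ((x : ℚ).den : ℚ) := by rw [← h]; ring
      _ = (x : ℚ) := Rat.num_div_den _
  · rw [Submodule.span_le, Set.singleton_subset_iff]
    have h : g ∈ I.comap (Int.castRingHom (Rp p)) := by
      rw [hg]; exact Submodule.mem_span_singleton_self g
    exact h

attribute [local instance] isFractionRing isPrincipalIdealRing

/-- A rational number whose image in `ℚ̄` is integral over `ℤ₍p₎` lies in `ℤ₍p₎`. -/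
theorem mem_of_isIntegral {x : ℚ}
    (hx : IsIntegral (Rp p) (algebraMap ℚ (AlgebraicClosure ℚ) x)) :
    x ∈ GaloisRep.ratLocalizedAt p := by
  have h : IsIntegral (Rp p) x :=
    (isIntegral_algebraMap_iff (algebraMap ℚ (AlgebraicClosure ℚ)).injective).mp hx
  obtain ⟨y, hy⟩ := IsIntegrallyClosed.isIntegral_iff.mp h
  rw [← hy]
  exact y.2

/-- Galois acts `ℤ₍p₎`-linearly. -/
theorem galois_smul (σ : GalQ) (r : Rp p) (a : AlgebraicClosure ℚ) :
    σ (r • a) = r • σ a := by
  exact σ.toLinearMap.map_smul (r : ℚ) a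

/-- `σ` as an algebra homomorphism over `ℤ₍p₎`. -/
noncomputable def galHom (σ : GalQ) : AlgebraicClosure ℚ →ₐ[Rp p] AlgebraicClosure ℚ :=
  AlgHom.mk' (σ : AlgebraicClosure ℚ →+* AlgebraicClosure ℚ) (galois_smul p σ)

@[simp] theorem galHom_apply (σ : GalQ) (a : AlgebraicClosure ℚ) : galHom p σ a = σ a := rfl

theorem mem_range_of_fixed {x : AlgebraicClosure ℚ} (hx : ∀ σ : GalQ, σ x = x) :
    ∃ q : ℚ, algebraMap ℚ (AlgebraicClosure ℚ) q = x :=
  haveI : Algebra.IsAlgebraic ℚ (AlgebraicClosure ℚ) := AlgebraicClosure.isAlgebraic ℚ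
  haveI : IsAlgClosure ℚ (AlgebraicClosure ℚ) := ⟨inferInstance, inferInstance⟩
  haveI : Normal ℚ (AlgebraicClosure ℚ) := IsAlgClosure.normal _ _
  haveI : IsGalois ℚ (AlgebraicClosure ℚ) := ⟨⟩
  (InfiniteGalois.mem_range_algebraMap_iff_fixed x).mpr hx

/-- Pullback of `ℚ̄`-valued functions. -/
noncomputable def pull {X Y : Type} (φ : X → Y) :
    (Y → AlgebraicClosure ℚ) →ₐ[Rp p] (X → AlgebraicClosure ℚ) :=
  AlgHom.ofLinearMap
    { toFun := fun f x => f (φ x)
      map_add' := fun _ _ => rfl
      map_smul' := fun _ _ => rfl } rfl fun _ _ => rfl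

@[simp] theorem pull_apply {X Y : Type} (φ : X → Y) (f : Y → AlgebraicClosure ℚ) (x : X) :
    pull p φ f x = f (φ x) := rfl

theorem pull_pull {X Y Z : Type} (φ : X → Y) (ψ : Y → Z) :
    (pull p φ).comp (pull p ψ) = pull p (ψ ∘ φ) := rfl

/-- Galois descent: equivariant functions linearly independent over `ℤ₍p₎` are linearly
independent over `ℚ̄`. -/
theorem linearIndependent_qbar {X : Type} (act : GalQ → X → X)
    (hact : ∀ σ, Function.Surjective (act σ)) {ι : Type} (v : ι → X → AlgebraicClosure ℚ)
    (hv : ∀ i σ x, v i (act σ x) = σ (v i x)) (hli : LinearIndependent (Rp p) v) :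
    LinearIndependent (AlgebraicClosure ℚ) v := by
  classical
  have hQ : LinearIndependent ℚ v := (LinearIndependent.iff_fractionRing (Rp p) ℚ).mp hli
  rw [linearIndependent_iff']
  intro s
  induction s using Finset.induction_on with
  | empty => simp
  | insert a s ha IH =>
    intro c hc i hi
    by_cases hca : c a = 0
    · rcases Finset.mem_insert.mp hi with rfl | hi'
      · exact hca
      · refine IH c ?_ i hi'
        rw [Finset.sum_insert ha, hca, zero_smul, zero_add] at hc
        exact hc
    exfalso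
    set d : ι → AlgebraicClosure ℚ := fun j => c j * (c a)⁻¹ with hd
    have hda : d a = 1 := mul_inv_cancel₀ hca
    have hdsum : ∑ j ∈ insert a s, d j • v j = 0 := by
      have := congrArg (fun w : X → AlgebraicClosure ℚ => (c a)⁻¹ • w) hc
      simp only [Finset.smul_sum, smul_zero, smul_smul] at this
      simpa only [hd, mul_comm] using this
    have hfix : ∀ j ∈ insert a s, ∀ σ : GalQ, σ (d j) = d j := by
      intro j hj σ
      rcases Finset.mem_insert.mp hj with rfl | hj'
      · rw [hda, map_one]
      · have hσ : ∑ k ∈ insert a s, σ (d k) • v k = 0 := by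
          funext x
          obtain ⟨y, rfl⟩ := hact σ x
          have := congrArg (fun w : X → AlgebraicClosure ℚ => σ (w y)) hdsum
          simp only [Finset.sum_apply, Pi.smul_apply, Pi.zero_apply, smul_eq_mul, map_sum,
            map_mul, map_zero] at this
          simp only [Finset.sum_apply, Pi.smul_apply, Pi.zero_apply, smul_eq_mul, hv]
          exact this
        have hdiff : ∑ k ∈ s, (σ (d k) - d k) • v k = 0 := by
          rw [Finset.sum_insert ha, hda, map_one] at hσ
          rw [Finset.sum_insert ha, hda] at hdsum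
          simp only [sub_smul, Finset.sum_sub_distrib]
          have := hσ.trans hdsum.symm
          rw [add_left_cancel this, sub_self]
        exact sub_eq_zero.mp (IH _ hdiff j hj')
    choose q hq using fun j (hj : j ∈ insert a s) => mem_range_of_fixed (hfix j hj)
    let q' : ι → ℚ := fun j => if hj : j ∈ insert a s then q j hj else 0
    have hq' : ∀ j ∈ insert a s, algebraMap ℚ (AlgebraicClosure ℚ) (q' j) = d j := fun j hj => by
      simp only [q', dif_pos hj, hq]
    have hrel : ∑ j ∈ insert a s, q' j • v j = 0 := by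
      rw [← hdsum]
      refine Finset.sum_congr rfl fun j hj => ?_
      rw [← hq' j hj, algebraMap_smul]
    have h0 := linearIndependent_iff'.mp hQ _ q' hrel a (Finset.mem_insert_self a s)
    have h1 := hq' a (Finset.mem_insert_self a s)
    rw [h0, hda, map_zero] at h1
    exact zero_ne_one h1

end FLTA.HeckeDatum.Flat
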