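import Fermat.Agent.HeckeDatum.FlatModelSubquotient
import Fermat.Prelude.Def_ModularCurve_ArithmeticGalois
import Mathlib.RingTheory.Finiteness.Cardinality
import Mathlib.RingTheory.Ideal.Quotient.Operations

/-!
# Flatness of an adic representation dominated by the torsion of `J₀(N)`
-/

set_option autoImplicit false

noncomputable section

namespace FLTA.HeckeDatum

open ModularCurve

/-- Galois acting on the `m`-torsion of `J₀(N)`. -/
def torsionAct (N : ℕ) [NeZero N] (m : ℤ) :
    GalQ →* AddMonoid.End ↥(Submodule.torsionBy ℤ (JZero N) m) where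
  toFun σ :=
    { toFun := fun x => ⟨σ • (x : JZero N), by
        have hx := (Submodule.mem_torsionBy_iff m (x : JZero N)).mp x.2
        rw [Submodule.mem_torsionBy_iff]
        show m • DistribMulAction.toAddMonoidHom (JZero N) σ (x : JZero N) = 0
        rw [← map_zsmul, hx, map_zero]⟩
      map_zero' := Subtype.ext (smul_zero σ)
      map_add' := fun x y => Subtype.ext (smul_add σ (x : JZero N) (y : JZero N)) }
  map_one' := AddMonoidHom.ext fun x => Subtype.ext (one_smul GalQ (x : JZero N))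
  map_mul' σ τ := AddMonoidHom.ext fun x => Subtype.ext (mul_smul σ τ (x : JZero N))

@[simp] theorem torsionAct_coe (N : ℕ) [NeZero N] (m : ℤ) (σ : GalQ)
    (x : ↥(Submodule.torsionBy ℤ (JZero N) m)) :
    (torsionAct N m σ x : JZero N) = σ • (x : JZero N) := rfl

/-- Galois acting on `V / I V`. -/
def levelHom {A : Type} [CommRing A] [IsLocalRing A] (ρ : GaloisRepAdic A) (I : Ideal A) :
    GalQ →* AddMonoid.End (ρ.V ⧸ (I • (⊤ : Submodule A ρ.V))) where
  toFun σ := (ρ.levelAction I σ).toAddMonoidHom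
  map_one' := AddMonoidHom.ext fun x => by
    obtain ⟨v, rfl⟩ := Submodule.Quotient.mk_surjective _ x
    show ρ.levelAction I 1 (Submodule.Quotient.mk v) = _
    rw [GaloisRepAdic.levelAction, Submodule.mapQ_apply, map_one]
    rfl
  map_mul' σ τ := AddMonoidHom.ext fun x => by
    obtain ⟨v, rfl⟩ := Submodule.Quotient.mk_surjective _ x
    show ρ.levelAction I (σ * τ) (Submodule.Quotient.mk v) =
      ρ.levelAction I σ (ρ.levelAction I τ (Submodule.Quotient.mk v))
    simp only [GaloisRepAdic.levelAction, Submodule.mapQ_apply, map_mul]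
    rfl

theorem finite_level {A : Type} [CommRing A] [IsLocalRing A] (ρ : GaloisRepAdic A) (I : Ideal A)
    (hI : Finite (A ⧸ I)) : Finite (ρ.V ⧸ (I • (⊤ : Submodule A ρ.V))) := by
  haveI := hI
  haveI : Module.Finite (A ⧸ I) (ρ.V ⧸ (I • (⊤ : Submodule A ρ.V))) :=
    Module.Finite.of_restrictScalars_finite A (A ⧸ I) _
  exact Module.finite_of_finite (A ⧸ I)

/-- The torsion of `J₀(N)` has a finite flat model in the form of statement S19. -/
theorem isHopfFlat_torsion (N : ℕ) [NeZero N] (p : ℕ) (m : ℤ)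
    (h : ∃ (H : Type) (_ : CommRing H) (_ : HopfAlgebra (GaloisRep.ratLocalizedAt p) H),
      Module.Finite (GaloisRep.ratLocalizedAt p) H ∧ Module.Flat (GaloisRep.ratLocalizedAt p) H ∧
      Coalgebra.IsCocomm (GaloisRep.ratLocalizedAt p) H ∧
      ∃ e : WithConv (H →ₐ[GaloisRep.ratLocalizedAt p] AlgebraicClosure ℚ) ≃
          ↥(Submodule.torsionBy ℤ (JZero N) m),
        (∀ f g, e (f * g) = e f + e g) ∧
        ∀ (σ : AlgebraicClosure ℚ ≃ₐ[ℚ] AlgebraicClosure ℚ)
          (f g : WithConv (H →ₐ[GaloisRep.ratLocalizedAt p] AlgebraicClosure ℚ)),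
          (∀ h : H, g h = σ (f h)) → ((e g : JZero N)) = σ • (e f : JZero N)) :
    IsHopfFlat p ↥(Submodule.torsionBy ℤ (JZero N) m) (torsionAct N m) := by
  obtain ⟨H, i₁, i₂, h1, h2, h3, e, he, hσ⟩ := h
  exact ⟨H, i₁, i₂, h1, h2, h3, e, he, fun σ f g hfg => Subtype.ext (hσ σ f g hfg)⟩

/-- If, for each ideal of finite index, some torsion level of `J₀(N)` with a finite flat model
dominates `V / I V` in the sense of group ring relations, then the representation is flat. -/
theorem isFlatAt_of_relations {A : Type} [CommRing A] [IsLocalRing A] (ρ : GaloisRepAdic A)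
    (N : ℕ) [NeZero N] {p : ℕ} (hp : p.Prime) (hres : Finite (IsLocalRing.ResidueField A))
    (hfin : ∀ k : ℕ, Finite ↥(Submodule.torsionBy ℤ (JZero N) ((p : ℤ) ^ k)))
    (hmodel : ∀ k : ℕ,
      IsHopfFlat p ↥(Submodule.torsionBy ℤ (JZero N) ((p : ℤ) ^ k)) (torsionAct N ((p : ℤ) ^ k)))
    (hrel : ∀ I : Ideal A, Finite (A ⧸ I) → ∃ k : ℕ, ∀ c : GalQ →₀ ℤ,
      groupRingAct (torsionAct N ((p : ℤ) ^ k)) c = 0 → groupRingAct (levelHom ρ I) c = 0) :
    ρ.IsFlatAt p := by
  refine ⟨hres, fun I hI => ?_⟩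
  obtain ⟨k, hk⟩ := hrel I hI
  haveI := hfin k
  haveI := finite_level ρ I hI
  exact ((HasFlatModel.of_isHopfFlat hp (hmodel k)).of_relations hp hk).isHopfFlat hp

end FLTA.HeckeDatum

end
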