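import Fermat.Agent.HeckeDatum.FlatModelBase
import Mathlib.RingTheory.TensorProduct.Maps
import Mathlib.LinearAlgebra.TensorProduct.Basis
import Mathlib.GroupTheory.OrderOfElement

/-!
# Basic structure of flat models

A model is a lattice in the algebra of functions: a basis is a `ℚ̄`-basis of all functions, every
algebra homomorphism to `ℚ̄` is an evaluation, products of models embed into functions on products.
-/

set_option autoImplicit false

noncomputable section

open scoped TensorProduct

namespace FLTA.HeckeDatum.Flat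

attribute [local instance] isFractionRing isPrincipalIdealRing

variable {p : ℕ} {P : Type} [AddCommGroup P] {act : GalQ →* AddMonoid.End P}

theorem act_mul_apply (act : GalQ →* AddMonoid.End P) (σ τ : GalQ) (x : P) :
    act σ (act τ x) = act (σ * τ) x := by
  rw [map_mul]; rfl

theorem act_inv_cancel (act : GalQ →* AddMonoid.End P) (σ : GalQ) (x : P) :
    act σ⁻¹ (act σ x) = x := by
  rw [act_mul_apply, inv_mul_cancel, map_one]; rfl

theorem act_cancel_inv (act : GalQ →* AddMonoid.End P) (σ : GalQ) (x : P) :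
    act σ (act σ⁻¹ x) = x := by
  rw [act_mul_apply, mul_inv_cancel, map_one]; rfl

theorem act_surjective (act : GalQ →* AddMonoid.End P) (σ : GalQ) :
    Function.Surjective (act σ) := fun x => ⟨_, act_cancel_inv act σ x⟩

section Prod

variable {X Y A B : Type} [CommRing A] [Algebra (Rp p) A] [CommRing B] [Algebra (Rp p) B]

/-- `a ⊗ b ↦ ((x, y) ↦ j₁ a x * j₂ b y)`. -/
def mulMap (j₁ : A →ₐ[Rp p] (X → AlgebraicClosure ℚ))
    (j₂ : B →ₐ[Rp p] (Y → AlgebraicClosure ℚ)) :
    A ⊗[Rp p] B →ₐ[Rp p] (X × Y → AlgebraicClosure ℚ) :=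
  Algebra.TensorProduct.productMap ((pull p Prod.fst).comp j₁) ((pull p Prod.snd).comp j₂)

@[simp] theorem mulMap_tmul (j₁ : A →ₐ[Rp p] (X → AlgebraicClosure ℚ))
    (j₂ : B →ₐ[Rp p] (Y → AlgebraicClosure ℚ)) (a : A) (b : B) (z : X × Y) :
    mulMap j₁ j₂ (a ⊗ₜ b) z = j₁ a z.1 * j₂ b z.2 := by
  simp [mulMap]

theorem mulMap_injective (j₁ : A →ₐ[Rp p] (X → AlgebraicClosure ℚ))
    (j₂ : B →ₐ[Rp p] (Y → AlgebraicClosure ℚ)) {ι : Type} (b : Module.Basis ι (Rp p) A)
    (hb : LinearIndependent (AlgebraicClosure ℚ) fun i => j₁ (b i))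
    (hj₂ : Function.Injective j₂) : Function.Injective (mulMap j₁ j₂) := by
  rw [injective_iff_map_eq_zero]
  intro t ht
  obtain ⟨c, rfl⟩ := TensorProduct.eq_repr_basis_left b t
  have hc : ∀ i, c i = 0 := by
    intro i
    by_contra hi
    refine hi (hj₂ ?_)
    funext y
    rw [map_zero, Pi.zero_apply]
    have hzero : ∑ k ∈ c.support, j₂ (c k) y • (fun x => j₁ (b k) x) = 0 := by
      funext x
      have h := congrFun ht (x, y)
      simp only [Finsupp.sum, map_sum, Finset.sum_apply, mulMap_tmul, Pi.zero_apply] at h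
      simp only [Finset.sum_apply, Pi.smul_apply, smul_eq_mul, Pi.zero_apply]
      rw [← h]
      exact Finset.sum_congr rfl fun k _ => mul_comm _ _
    exact linearIndependent_iff'.mp hb _ _ hzero i (Finsupp.mem_support_iff.mpr hi)
  simp [Finsupp.sum, hc]

end Prod

section Model

variable (M : FlatModel p P act)

/-- The inclusion of a model into all functions. -/
abbrev incl : M.O →ₐ[Rp p] (P → AlgebraicClosure ℚ) := M.O.val

theorem isTorsionFree : Module.IsTorsionFree (Rp p) M.O := by
  refine ⟨fun r hr a b hab => Subtype.ext (funext fun x => ?_)⟩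
  have hr0 : (r : ℚ) ≠ 0 := fun h => hr.ne_zero (Subtype.ext h)
  have h : (r : ℚ) • ((a : P → AlgebraicClosure ℚ) x) = (r : ℚ) • ((b : P → AlgebraicClosure ℚ) x) :=
    congrArg (fun c : M.O => (c : P → AlgebraicClosure ℚ) x) hab
  exact smul_right_injective _ hr0 h

theorem free : Module.Free (Rp p) M.O := by
  haveI := M.finite_O
  haveI := isTorsionFree M
  exact Module.free_of_finite_type_torsion_free'

theorem flat : Module.Flat (Rp p) M.O := by
  haveI := free M
  infer_instance

/-- A chosen basis. -/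
def basis : Module.Basis (@Module.Free.ChooseBasisIndex (Rp p) M.O _ _ _ (free M)) (Rp p) M.O :=
  @Module.Free.chooseBasis (Rp p) M.O _ _ _ (free M)

theorem basis_li :
    LinearIndependent (AlgebraicClosure ℚ) fun i => (incl M (basis M i) : P → AlgebraicClosure ℚ) := by
  refine linearIndependent_qbar p (fun σ x => act σ x) (act_surjective act) _
    (fun i σ x => M.equivariant _ (basis M i).2 σ x) ?_
  exact (basis M).linearIndependent.map' (incl M).toLinearMap
    (LinearMap.ker_eq_bot.mpr Subtype.val_injective)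

/-- The map `O ⊗ O → functions on P × P`. -/
def mulMap₂ : M.O ⊗[Rp p] M.O →ₐ[Rp p] (P × P → AlgebraicClosure ℚ) :=
  mulMap (incl M) (incl M)

theorem mulMap₂_injective : Function.Injective (mulMap₂ M) :=
  mulMap_injective _ _ (basis M) (basis_li M) Subtype.val_injective

/-- The span of products of two elements of the model. -/
def prodSpan : Submodule (Rp p) (P × P → AlgebraicClosure ℚ) :=
  Submodule.span (Rp p)
    {g : P × P → AlgebraicClosure ℚ | ∃ a ∈ M.O, ∃ b ∈ M.O, g = fun xy => a xy.1 * b xy.2}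

theorem mem_prodSpan_iff {g : P × P → AlgebraicClosure ℚ} :
    g ∈ prodSpan M ↔ ∃ t, mulMap₂ M t = g := by
  refine ⟨fun h => ?_, ?_⟩
  · refine Submodule.span_induction ?_ ⟨0, map_zero _⟩ ?_ ?_ h
    · rintro g ⟨a, ha, b, hb, rfl⟩
      exact ⟨⟨a, ha⟩ ⊗ₜ ⟨b, hb⟩, funext fun z => mulMap_tmul _ _ _ _ z⟩
    · rintro x y _ _ ⟨s, rfl⟩ ⟨t, rfl⟩
      exact ⟨s + t, map_add _ _ _⟩
    · rintro r x _ ⟨t, rfl⟩
      exact ⟨r • t, map_smul _ _ _⟩
  · rintro ⟨t, rfl⟩
    induction t using TensorProduct.induction_on with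
    | zero => rw [map_zero]; exact Submodule.zero_mem _
    | tmul a b =>
      exact Submodule.subset_span ⟨a, a.2, b, b.2, funext fun z => mulMap_tmul _ _ _ _ z⟩
    | add x y hx hy => rw [map_add]; exact Submodule.add_mem _ hx hy

theorem span_qbar_eq_top [Finite P] :
    Submodule.span (AlgebraicClosure ℚ) (M.O : Set (P → AlgebraicClosure ℚ)) = ⊤ := by
  classical
  haveI := Fintype.ofFinite P
  have hS : Submodule.span (AlgebraicClosure ℚ) (M.O : Set (P → AlgebraicClosure ℚ)) =
      Subalgebra.toSubmodule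
        (Algebra.adjoin (AlgebraicClosure ℚ) (M.O : Set (P → AlgebraicClosure ℚ))) := by
    rw [Algebra.adjoin_eq_span, show (M.O : Set (P → AlgebraicClosure ℚ)) =
      (M.O.toSubsemiring.toSubmonoid : Set (P → AlgebraicClosure ℚ)) from rfl,
      Submonoid.closure_eq]
  rw [hS]
  set S := Algebra.adjoin (AlgebraicClosure ℚ) (M.O : Set (P → AlgebraicClosure ℚ)) with hSdef
  suffices hsingle : ∀ x : P, (Pi.single x (1 : AlgebraicClosure ℚ) : P → AlgebraicClosure ℚ) ∈ S by
    rw [eq_top_iff]
    intro g _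
    rw [Subalgebra.mem_toSubmodule, pi_eq_sum_univ g]
    refine Subalgebra.sum_mem _ fun i _ => ?_
    have hi : (fun j => if i = j then (1 : AlgebraicClosure ℚ) else 0) = Pi.single i 1 := by
      funext j; simp [Pi.single_apply, eq_comm]
    rw [hi]
    exact S.smul_mem (hsingle i) _
  intro x
  choose! f hfO hf using fun y (hy : x ≠ y) => M.separates x y hy
  let g : P → P → AlgebraicClosure ℚ := fun y =>
    (f y x - f y y)⁻¹ • (f y - algebraMap (AlgebraicClosure ℚ) (P → AlgebraicClosure ℚ) (f y y))
  have hg : ∀ y, x ≠ y → g y ∈ S := fun y hy =>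
    S.smul_mem (sub_mem (Algebra.subset_adjoin (hfO y hy)) (S.algebraMap_mem _)) _
  have hprod : (Pi.single x (1 : AlgebraicClosure ℚ) : P → AlgebraicClosure ℚ) =
      ∏ y ∈ Finset.univ.erase x, g y := by
    funext z
    rw [Finset.prod_apply]
    by_cases hz : z = x
    · subst hz
      rw [Pi.single_eq_same, eq_comm]
      refine Finset.prod_eq_one fun y hy => ?_
      have hy' : z ≠ y := (Finset.ne_of_mem_erase hy).symm
      simp only [g, Pi.smul_apply, Pi.sub_apply, Pi.algebraMap_apply, Algebra.algebraMap_self,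
        RingHom.id_apply, smul_eq_mul]
      exact inv_mul_cancel₀ (sub_ne_zero.mpr (hf y hy'))
    · rw [Pi.single_eq_of_ne hz, eq_comm]
      refine Finset.prod_eq_zero (Finset.mem_erase.mpr ⟨hz, Finset.mem_univ _⟩) ?_
      simp [g]
  rw [hprod]
  exact Subalgebra.prod_mem _ fun y hy => hg y (Finset.ne_of_mem_erase hy).symm

theorem basis_span_top [Finite P] :
    ⊤ ≤ Submodule.span (AlgebraicClosure ℚ)
      (Set.range fun i => (incl M (basis M i) : P → AlgebraicClosure ℚ)) := by
  rw [← span_qbar_eq_top M, Submodule.span_le]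
  intro f hf
  have hmem : incl M (⟨f, hf⟩ : M.O) ∈ Submodule.span (Rp p)
      (Set.range fun i => (incl M (basis M i) : P → AlgebraicClosure ℚ)) := by
    have h := Submodule.mem_map_of_mem (f := (incl M).toLinearMap)
      ((basis M).mem_span (⟨f, hf⟩ : M.O))
    rwa [Submodule.map_span, ← Set.range_comp] at h
  exact Submodule.span_le_restrictScalars (Rp p) (AlgebraicClosure ℚ) _ hmem

/-- The `ℚ̄`-basis of all functions coming from a basis of the model. -/
def qBasis [Finite P] :
    Module.Basis (@Module.Free.ChooseBasisIndex (Rp p) M.O _ _ _ (free M)) (AlgebraicClosure ℚ)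
      (P → AlgebraicClosure ℚ) :=
  Module.Basis.mk (basis_li M) (basis_span_top M)

@[simp] theorem qBasis_apply [Finite P] (i) :
    qBasis M i = (incl M (basis M i) : P → AlgebraicClosure ℚ) :=
  Module.Basis.mk_apply _ _ i

/-- Every algebra homomorphism `O → ℚ̄` is an evaluation. -/
theorem exists_point [Finite P] (φ : M.O →ₐ[Rp p] AlgebraicClosure ℚ) :
    ∃ x : P, ∀ f : M.O, φ f = (f : P → AlgebraicClosure ℚ) x := by
  classical
  haveI := Fintype.ofFinite P
  let Φ := (qBasis M).constr (AlgebraicClosure ℚ) fun i => φ (basis M i)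
  have hΦ : ∀ f : M.O, Φ (f : P → AlgebraicClosure ℚ) = φ f := by
    intro f
    have h : (Φ.restrictScalars (Rp p)).comp (incl M).toLinearMap = φ.toLinearMap :=
      (basis M).ext fun i => by
        show Φ (incl M (basis M i)) = φ (basis M i)
        rw [← qBasis_apply M i]
        exact (qBasis M).constr_basis _ _ i
    exact LinearMap.congr_fun h f
  have hmul : ∀ u v : P → AlgebraicClosure ℚ, Φ (u * v) = Φ u * Φ v := by
    have h : (LinearMap.mul (AlgebraicClosure ℚ) (P → AlgebraicClosure ℚ)).compr₂ Φ =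
        (LinearMap.mul (AlgebraicClosure ℚ) (AlgebraicClosure ℚ)).compl₁₂ Φ Φ := by
      refine (qBasis M).ext fun i => (qBasis M).ext fun j => ?_
      simp only [LinearMap.compr₂_apply, LinearMap.compl₁₂_apply, LinearMap.mul_apply',
        qBasis_apply]
      have := hΦ (basis M i * basis M j)
      rw [Subalgebra.coe_mul, map_mul φ, ← hΦ, ← hΦ] at this
      exact this
    intro u v
    exact LinearMap.congr_fun₂ h u v
  have h1 : Φ 1 = 1 := by
    have := hΦ 1
    rwa [OneMemClass.coe_one, map_one φ] at this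
  obtain ⟨x, hx⟩ : ∃ x : P, Φ (Pi.single x 1) ≠ 0 := by
    by_contra! hall
    have hsum : (1 : P → AlgebraicClosure ℚ) = ∑ x, Pi.single x (1 : AlgebraicClosure ℚ) :=
      (Finset.univ_sum_single (1 : P → AlgebraicClosure ℚ)).symm
    rw [hsum, map_sum, Finset.sum_eq_zero fun x _ => hall x] at h1
    exact zero_ne_one h1
  refine ⟨x, fun f => ?_⟩
  rw [← hΦ]
  have hfx : (f : P → AlgebraicClosure ℚ) * Pi.single x 1 =
      (f : P → AlgebraicClosure ℚ) x • Pi.single x 1 := by
    funext z
    by_cases hz : z = x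
    · subst hz; simp
    · simp [hz]
  have := congrArg Φ hfx
  rw [hmul, map_smul, smul_eq_mul] at this
  exact mul_right_cancel₀ hx this

/-- An equivariant function has a nonzero multiple in the model. -/
theorem exists_smul_mem [Finite P] (F : P → AlgebraicClosure ℚ)
    (hF : ∀ (σ : GalQ) x, F (act σ x) = σ (F x)) :
    ∃ r : Rp p, r ≠ 0 ∧ r • F ∈ M.O := by
  classical
  haveI := M.finite_O
  haveI := free M
  set c := (qBasis M).repr F with hc
  have hsum : ∑ i, c i • (incl M (basis M i) : P → AlgebraicClosure ℚ) = F := by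
    simp only [← qBasis_apply M]
    exact (qBasis M).sum_repr F
  have hfix : ∀ i (σ : GalQ), σ (c i) = c i := by
    intro i σ
    have hσ : ∑ j, σ (c j) • (incl M (basis M j) : P → AlgebraicClosure ℚ) = F := by
      funext x
      obtain ⟨y, rfl⟩ := act_surjective act σ x
      rw [hF, ← congrFun hsum y, map_sum' σ]
      simp only [Finset.sum_apply, Pi.smul_apply, smul_eq_mul]
      refine Finset.sum_congr rfl fun j _ => ?_
      rw [map_mul]
      exact congrArg _ (M.equivariant _ (basis M j).2 σ y)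
    have hzero : ∑ j, (σ (c j) - c j) • (incl M (basis M j) : P → AlgebraicClosure ℚ) = 0 := by
      simp only [sub_smul, Finset.sum_sub_distrib]
      rw [hσ, hsum, sub_self]
    exact sub_eq_zero.mp (Fintype.linearIndependent_iff.mp (basis_li M) _ hzero i)
  choose q hq using fun i => mem_range_of_fixed (hfix i)
  obtain ⟨r, hr⟩ := IsLocalization.exist_integer_multiples_of_finite (nonZeroDivisors (Rp p)) q
  choose z hz using hr
  refine ⟨r, nonZeroDivisors.coe_ne_zero r, ?_⟩
  have hrF : (r : Rp p) • F = ((∑ i, z i • basis M i : M.O) : P → AlgebraicClosure ℚ) := by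
    rw [AddSubmonoidClass.coe_finset_sum, ← hsum, Finset.smul_sum]
    refine Finset.sum_congr rfl fun i _ => ?_
    rw [← hq i, algebraMap_smul, ← smul_assoc, ← hz i, algebraMap_smul]
    rfl
  rw [hrF]
  exact Subtype.property _
where
  map_sum' (σ : GalQ) {ι : Type} {s : Finset ι} {v : ι → P → AlgebraicClosure ℚ} {y : P} :
      σ ((∑ i ∈ s, v i) y) = ∑ i ∈ s, σ (v i y) := by
    rw [Finset.sum_apply, map_sum]

theorem comp_nsmul_mem {f : P → AlgebraicClosure ℚ} (k : ℕ) (hf : f ∈ M.O) :
    (fun x => f ((k + 1) • x)) ∈ M.O := by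
  induction k generalizing f with
  | zero => simpa using hf
  | succ k IH =>
    obtain ⟨t, ht⟩ := (mem_prodSpan_iff M).mp (M.comul f hf)
    have hfun : (fun x => f ((k + 1 + 1) • x)) =
        fun x => mulMap₂ M t ((k + 1) • x, x) := by
      funext x
      rw [ht, succ_nsmul]
    rw [hfun]
    clear ht hfun
    induction t using TensorProduct.induction_on with
    | zero => simp only [map_zero, Pi.zero_apply]; exact M.O.zero_mem
    | tmul a b =>
      have := M.O.mul_mem (IH a.2) b.2
      convert this using 1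
      funext x
      exact mulMap_tmul _ _ _ _ _
    | add u v hu hv =>
      simp only [map_add, Pi.add_apply]
      exact M.O.add_mem hu hv

theorem comp_neg_mem [Finite P] {f : P → AlgebraicClosure ℚ} (hf : f ∈ M.O) :
    (fun x => f (-x)) ∈ M.O := by
  have hn : 0 < Nat.card P := Nat.card_pos
  have hneg : (fun x => f (-x)) = fun x => f ((2 * Nat.card P - 2 + 1) • x) := by
    funext x
    congr 1
    apply neg_eq_of_add_eq_zero_left
    rw [← succ_nsmul, show 2 * Nat.card P - 2 + 1 + 1 = 2 * Nat.card P by omega, mul_nsmul,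
      card_nsmul_eq_zero']
  rw [hneg]
  exact comp_nsmul_mem M _ hf

theorem isIntegral_apply {f : P → AlgebraicClosure ℚ} (hf : f ∈ M.O) (x : P) :
    IsIntegral (Rp p) (f x) := by
  haveI := M.finite_O
  exact (Algebra.IsIntegral.isIntegral (⟨f, hf⟩ : M.O)).map
    ((Pi.evalAlgHom (Rp p) (fun _ : P => AlgebraicClosure ℚ) x).comp M.O.val)

end Model

end FLTA.HeckeDatum.Flat

end
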