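import Fermat.Agent.HeckeDatum.Relation
import Fermat.Agent.HeckeDatum.FlatModelApply

/-!
# Flatness of a Hecke–Galois datum, given Tate module data and torsion models
-/

set_option autoImplicit false

noncomputable section

open scoped Matrix

namespace FLTA.HeckeDatum

open FLTA.GaloisReps (TateData)

variable {p : ℕ} [Fact p.Prime] {N : ℕ} [NeZero N]

theorem finite_torsion_of_tateData (D : TateData N p) (k : ℕ) :
    Finite ↥(Submodule.torsionBy ℤ (ModularCurve.JZero N) ((p : ℤ) ^ k)) :=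
  haveI : NeZero (p ^ k) := ⟨pow_ne_zero _ (Fact.out : p.Prime).ne_zero⟩
  Finite.of_equiv _ (D.torsionEquiv k).toEquiv

/-- A relation on the torsion points is a relation of the matrices modulo `p ^ k`. -/
theorem galModPow_relation (D : TateData N p) (k : ℕ) (c : GalQ →₀ ℤ)
    (hc : groupRingAct (torsionAct N ((p : ℤ) ^ k)) c = 0) :
    ∑ g ∈ c.support, c g • galModPow D k g = 0 := by
  refine Matrix.toLin'.injective (LinearMap.ext fun v => (D.torsionEquiv k).injective ?_)
  rw [map_zero, LinearMap.zero_apply, map_zero]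
  have hterm : ∀ g : GalQ, D.torsionEquiv k (galModPow D k g *ᵥ v) =
      torsionAct N ((p : ℤ) ^ k) g (D.torsionEquiv k v) := fun g =>
    Subtype.ext (D.torsionEquiv_galois k g v)
  have h := DFunLike.congr_fun hc (D.torsionEquiv k v)
  simp only [groupRingAct, Finsupp.linearCombination_apply, Finsupp.sum] at h
  simp only [map_sum, map_zsmul, LinearMap.sum_apply, LinearMap.smul_apply,
    Matrix.toLin'_apply, hterm]
  erw [AddMonoidHom.finsetSum_apply] at h
  exact h

variable {S : Finset ℕ} {𝒪 : Type} [CommRing 𝒪] [IsDomain 𝒪] [IsDiscreteValuationRing 𝒪]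
  [IsAdicComplete (IsLocalRing.maximalIdeal 𝒪) 𝒪]
  {θ : CuspForm.heckeAlgebra N 2 (↑S : Set ℕ) →+* IsLocalRing.ResidueField 𝒪}
  {T : Type} [CommRing T] [IsLocalRing T] [IsNoetherianRing T]
  [IsAdicComplete (IsLocalRing.maximalIdeal T) T] [Algebra 𝒪 T] [IsLocalHom (algebraMap 𝒪 T)]
  [Module.Finite 𝒪 T] [Module.Free 𝒪 T]

omit [IsNoetherianRing T] [IsAdicComplete (IsLocalRing.maximalIdeal T) T] in
/-- A residually absolutely irreducible representation with the Frobenius polynomials of a Hecke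
character is flat at `p` when the `p`-power torsion of `J₀(N)` has finite flat models. -/
theorem isFlatAt_of_charpoly (D : TateData N p) (hres : Finite (IsLocalRing.ResidueField T))
    (hpT : (p : T) ∈ IsLocalRing.maximalIdeal T)
    (hpS : p ∈ S) (hNS : ∀ q : ℕ, q.Prime → q ∣ N → q ∈ S)
    (π : CuspForm.heckeAlgebra N 2 (↑S : Set ℕ) →+* T) (ρ : GaloisRepAdic T)
    (hfrob : ∀ (ℓ : ℕ) (hℓ : ℓ.Prime) (hℓN : ¬ ℓ ∣ N) (hℓS : ℓ ∉ (↑S : Set ℕ)),
      ∀ A : ValuationSubring (AlgebraicClosure ℚ), A.LiesOverPrime ℓ →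
        ∀ σ : AlgebraicClosure ℚ ≃ₐ[ℚ] AlgebraicClosure ℚ, A.IsFrobeniusAt σ ℓ →
          LinearMap.charpoly (ρ.ρ σ) = Polynomial.X ^ 2 -
            Polynomial.C (π (CuspForm.heckeAlgebra.T hℓ hℓN hℓS)) * Polynomial.X +
            Polynomial.C ((ℓ : T)))
    (hirr : ρ.residual.IsAbsolutelyIrreducible)
    (hmodel : ∀ k : ℕ, IsHopfFlat p
      ↥(Submodule.torsionBy ℤ (ModularCurve.JZero N) ((p : ℤ) ^ k))
      (torsionAct N ((p : ℤ) ^ k))) :
    ρ.IsFlatAt p := by
  refine isFlatAt_of_relations ρ N Fact.out hres (finite_torsion_of_tateData D) hmodel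
    fun I hI => ?_
  haveI : IsArtinianRing (T ⧸ I) := isArtinian_of_finite
  obtain ⟨n, hn⟩ := IsLocalRing.exists_maximalIdeal_pow_le_of_isArtinianRing_quotient I
  obtain ⟨k, hk⟩ := exists_level_relation_of_charpoly D hpT hpS hNS π ρ hfrob hirr n
  refine ⟨k, fun c hc => AddMonoidHom.ext fun x => ?_⟩
  obtain ⟨v, rfl⟩ := Submodule.Quotient.mk_surjective _ x
  have hmat : ∑ g ∈ c.support, heckeModPow D (↑S : Set ℕ) k (c g : ℤ) * galModPow D k g = 0 := by
    rw [← galModPow_relation D k c hc]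
    exact Finset.sum_congr rfl fun g _ => by rw [map_intCast, ← zsmul_eq_mul]
  have hv := Submodule.smul_mono hn le_rfl (hk GalQ c.support (fun g => (c g : ℤ)) id hmat v)
  rw [← Submodule.Quotient.mk_eq_zero] at hv
  simp only [groupRingAct, Finsupp.linearCombination_apply, Finsupp.sum]
  erw [AddMonoidHom.finsetSum_apply]
  refine Eq.trans ?_ hv
  simp only [← Submodule.mkQ_apply, map_sum]
  refine Finset.sum_congr rfl fun g _ => ?_
  show c g • (levelHom ρ I g) (Submodule.Quotient.mk v) = _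
  rw [map_intCast, Int.cast_smul_eq_zsmul, map_zsmul]
  rfl

/-- The datum is flat at `p` when the `p`-power torsion of `J₀(N)` has finite flat models. -/
theorem isFlatAt_of_tateData (D : TateData N p) [Finite (IsLocalRing.ResidueField 𝒪)]
    (hp𝒪 : (p : 𝒪) ∈ IsLocalRing.maximalIdeal 𝒪)
    (hpS : p ∈ S) (hNS : ∀ q : ℕ, q.Prime → q ∣ N → q ∈ S)
    (H : CuspForm.HeckeGaloisRepDatum N (↑S : Set ℕ) 𝒪 θ T)
    (hmodel : ∀ k : ℕ, IsHopfFlat p
      ↥(Submodule.torsionBy ℤ (ModularCurve.JZero N) ((p : ℤ) ^ k))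
      (torsionAct N ((p : ℤ) ^ k))) :
    H.ρ.IsFlatAt p := by
  have hres : Finite (IsLocalRing.ResidueField T) :=
    Finite.of_surjective
      (IsLocalRing.ResidueField.map (algebraMap 𝒪 T)) fun y => by
        obtain ⟨x, hx⟩ := H.residue_surjective y
        exact ⟨IsLocalRing.residue 𝒪 x, hx⟩
  exact isFlatAt_of_charpoly D hres (natCast_mem_maximalIdeal hp𝒪) hpS hNS H.π H.ρ H.charpoly_frob
    H.residual_absIrr hmodel

end FLTA.HeckeDatum

end
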