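import Fermat.Agent.HeckeDatum.FlatModelBasic
import Mathlib.Algebra.Polynomial.Roots
import Mathlib.RingTheory.IntegralClosure.IsIntegralClosure.Basic

/-!
# Flat models of Galois submodules, quotients and finite powers
-/

set_option autoImplicit false

noncomputable section

open scoped TensorProduct

namespace FLTA.HeckeDatum.Flat

attribute [local instance] isFractionRing isPrincipalIdealRing

variable {p : ℕ} {P Q : Type} [AddCommGroup P] [AddCommGroup Q]
  {act : GalQ →* AddMonoid.End P} {act' : GalQ →* AddMonoid.End Q}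

/-- A Galois submodule of a module with a model has a model. -/
theorem model_of_injective (M : FlatModel p P act) (f : Q →+ P)
    (hf : Function.Injective f) (hcomm : ∀ σ x, f (act' σ x) = act σ (f x)) :
    HasFlatModel p Q act' := by
  haveI := M.finite_O
  refine ⟨{ O := M.O.map (pull p f), finite_O := ?_, equivariant := ?_, separates := ?_,
            comul := ?_ }⟩
  · let g : M.O →ₐ[Rp p] M.O.map (pull p f) :=
      ((pull p f).comp M.O.val).codRestrict _ fun a => ⟨a, a.2, rfl⟩
    exact Module.Finite.of_surjective g.toLinearMap fun ⟨_, a, ha, h⟩ => ⟨⟨a, ha⟩, Subtype.ext h⟩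
  · rintro _ ⟨a, ha, rfl⟩ σ x
    show a (f (act' σ x)) = σ (a (f x))
    rw [hcomm, M.equivariant a ha]
  · intro x y hxy
    obtain ⟨a, ha, hne⟩ := M.separates _ _ (hf.ne hxy)
    exact ⟨pull p f a, ⟨a, ha, rfl⟩, hne⟩
  · rintro _ ⟨a, ha, rfl⟩
    have h := Submodule.mem_map_of_mem (f := (pull p (Prod.map f f)).toLinearMap) (M.comul a ha)
    rw [Submodule.map_span] at h
    have hfun : (pull p (Prod.map f f)).toLinearMap (fun xy : P × P => a (xy.1 + xy.2)) =
        fun xy : Q × Q => (pull p f) a (xy.1 + xy.2) := by
      funext xy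
      simp
    rw [hfun] at h
    refine Submodule.span_mono ?_ h
    rintro _ ⟨_, ⟨u, hu, v, hv, rfl⟩, rfl⟩
    exact ⟨pull p f u, ⟨u, hu, rfl⟩, pull p f v, ⟨v, hv, rfl⟩, rfl⟩

/-- Second-variable descent along `f`. -/
theorem exists_descend (M : FlatModel p P act) {X A : Type} [CommRing A] [Algebra (Rp p) A]
    (j : A →ₐ[Rp p] (X → AlgebraicClosure ℚ)) {ι : Type} (b : Module.Basis ι (Rp p) A)
    (hb : LinearIndependent (AlgebraicClosure ℚ) fun i => j (b i))
    (f : P →+ Q) (hf : Function.Surjective f) (t : A ⊗[Rp p] M.O)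
    (hinv : ∀ x y y', f y = f y' → mulMap j (incl M) t (x, y) = mulMap j (incl M) t (x, y')) :
    ∃ s : A ⊗[Rp p] ↥(M.O.comap (pull p f)),
      ∀ x y, mulMap j (M.O.comap (pull p f)).val s (x, f y) = mulMap j (incl M) t (x, y) := by
  classical
  obtain ⟨c, rfl⟩ := TensorProduct.eq_repr_basis_left b t
  have hc : ∀ i y y', f y = f y' →
      (c i : P → AlgebraicClosure ℚ) y = (c i : P → AlgebraicClosure ℚ) y' := by
    intro i y y' hy
    by_cases hi : i ∈ c.support
    · have hzero : ∑ k ∈ c.support, ((c k : P → AlgebraicClosure ℚ) y -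
          (c k : P → AlgebraicClosure ℚ) y') • (fun x => j (b k) x) = 0 := by
        funext x
        have h := hinv x y y' hy
        simp only [Finsupp.sum, map_sum, Finset.sum_apply, mulMap_tmul] at h
        simp only [Finset.sum_apply, Pi.smul_apply, smul_eq_mul, Pi.zero_apply, sub_mul,
          Finset.sum_sub_distrib, sub_eq_zero]
        refine Eq.trans ?_ (h.trans (Finset.sum_congr rfl fun k _ => mul_comm _ _))
        exact Finset.sum_congr rfl fun k _ => mul_comm _ _
      exact sub_eq_zero.mp (linearIndependent_iff'.mp hb _ _ hzero i hi)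
    · rw [Finsupp.notMem_support_iff.mp hi]; rfl
  choose s hs using hf
  have hmem : ∀ i, (fun w => (c i : P → AlgebraicClosure ℚ) (s w)) ∈ M.O.comap (pull p f) := by
    intro i
    rw [Subalgebra.mem_comap]
    convert (c i).2 using 1
    funext y
    exact hc i _ _ (hs (f y))
  refine ⟨∑ i ∈ c.support, b i ⊗ₜ ⟨_, hmem i⟩, fun x y => ?_⟩
  simp only [Finsupp.sum, map_sum, Finset.sum_apply, mulMap_tmul]
  exact Finset.sum_congr rfl fun i _ => congrArg _ (hc i _ _ (hs (f y)))

theorem exists_injective_mem [Finite P] (M : FlatModel p P act) :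
    ∃ a ∈ M.O, Function.Injective a := by
  classical
  haveI := Fintype.ofFinite P
  haveI := M.finite_O
  haveI := free M
  let e := Fintype.equivFin (Module.Free.ChooseBasisIndex (Rp p) M.O)
  let bb : _ → P → AlgebraicClosure ℚ := fun i => incl M (basis M i)
  let π : P × P → Polynomial (AlgebraicClosure ℚ) := fun z =>
    ∑ i, Polynomial.monomial (e i : ℕ) (bb i z.1 - bb i z.2)
  have hπ : ∀ z : P × P, z.1 ≠ z.2 → π z ≠ 0 := by
    intro z hz h0
    obtain ⟨a, ha, hne⟩ := M.separates _ _ hz
    apply hne
    have hcoeff : ∀ i, bb i z.1 = bb i z.2 := by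
      intro i
      have h := congrArg (fun q => Polynomial.coeff q (e i : ℕ)) h0
      simp only [π, Polynomial.finset_sum_coeff, Polynomial.coeff_monomial,
        Polynomial.coeff_zero] at h
      rw [Finset.sum_eq_single i (fun k _ hk => if_neg fun hki => hk (e.injective (Fin.ext hki)))
        (fun h => absurd (Finset.mem_univ i) h), if_pos rfl, sub_eq_zero] at h
      exact h
    have hr := congrArg (incl M) ((basis M).sum_repr ⟨a, ha⟩)
    rw [map_sum] at hr
    rw [show a = incl M ⟨a, ha⟩ from rfl, ← hr, Finset.sum_apply, Finset.sum_apply]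
    refine Finset.sum_congr rfl fun i _ => ?_
    rw [map_smul, Pi.smul_apply, Pi.smul_apply]
    exact congrArg _ (hcoeff i)
  let big := ∏ z ∈ Finset.univ.filter (fun z : P × P => z.1 ≠ z.2), π z
  have hbig : big ≠ 0 := Finset.prod_ne_zero_iff.mpr fun z hz => hπ z (Finset.mem_filter.mp hz).2
  obtain ⟨n, hn⟩ : ∃ n : ℕ, big.eval (n : AlgebraicClosure ℚ) ≠ 0 := by
    by_contra! hall
    exact hbig (Polynomial.eq_zero_of_infinite_isRoot big
      ((Set.infinite_range_of_injective Nat.cast_injective).mono
        (Set.range_subset_iff.mpr hall)))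
  refine ⟨incl M (∑ i, (n ^ (e i : ℕ)) • basis M i), Subtype.property _, fun x y hxy => ?_⟩
  by_contra hne
  have hz := fun h0 : (π (x, y)).eval (n : AlgebraicClosure ℚ) = 0 => hn (by
    rw [Polynomial.eval_prod]
    exact Finset.prod_eq_zero (Finset.mem_filter.mpr ⟨Finset.mem_univ _, hne⟩) h0)
  apply hz
  simp only [π, Polynomial.eval_finset_sum, Polynomial.eval_monomial, sub_mul,
    Finset.sum_sub_distrib, sub_eq_zero]
  simp only [map_sum, map_nsmul, Finset.sum_apply, Pi.smul_apply] at hxy
  simp only [nsmul_eq_mul, Nat.cast_pow] at hxy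
  refine (Finset.sum_congr rfl fun i _ => mul_comm _ _).trans
    (hxy.trans (Finset.sum_congr rfl fun i _ => mul_comm _ _))

/-- A Galois quotient of a finite module with a model has a model. -/
theorem model_of_surjective [Finite P] (M : FlatModel p P act) (f : P →+ Q)
    (hf : Function.Surjective f) (hcomm : ∀ σ x, f (act σ x) = act' σ (f x)) :
    HasFlatModel p Q act' := by
  classical
  haveI := Fintype.ofFinite P
  haveI := M.finite_O
  let O' := M.O.comap (pull p f)
  have hpullinj : Function.Injective (pull p f) := fun u v h => funext fun w => by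
    obtain ⟨x, rfl⟩ := hf w
    exact congrFun h x
  have hequiv : ∀ g ∈ O', ∀ σ w, g (act' σ w) = σ (g w) := by
    intro g hg σ w
    obtain ⟨x, rfl⟩ := hf w
    rw [← hcomm]
    exact M.equivariant _ hg σ x
  let toO : O' →ₗ[Rp p] M.O :=
    (((pull p f).comp O'.val).codRestrict M.O fun g => g.2).toLinearMap
  have htoO : Function.Injective toO := fun u v h =>
    Subtype.ext (hpullinj (congrArg Subtype.val h))
  haveI := isTorsionFree M
  haveI : Module.Finite (Rp p) O' := Module.Finite.of_injective toO htoO
  haveI : Module.IsTorsionFree (Rp p) O' :=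
    htoO.moduleIsTorsionFree _ fun r a => map_smul toO r a
  haveI : Module.Free (Rp p) O' := Module.free_of_finite_type_torsion_free'
  let b' := Module.Free.chooseBasis (Rp p) O'
  have hb' : LinearIndependent (AlgebraicClosure ℚ) fun i => (O'.val (b' i) : Q → _) :=
    linearIndependent_qbar p (fun σ w => act' σ w) (act_surjective act') _
      (fun i σ w => hequiv _ (b' i).2 σ w)
      (b'.linearIndependent.map' O'.val.toLinearMap
        (LinearMap.ker_eq_bot.mpr Subtype.val_injective))
  refine ⟨{ O := O', finite_O := inferInstance, equivariant := hequiv, separates := ?_,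
            comul := ?_ }⟩
  · obtain ⟨a, ha, hainj⟩ := exists_injective_mem M
    intro w w' hne
    by_contra! hall
    let fib : Q → Finset P := fun v => Finset.univ.filter fun x => f x = v
    let F : ℕ → Q → AlgebraicClosure ℚ := fun m v => ∏ x ∈ fib v, ((m : AlgebraicClosure ℚ) - a x)
    have hF : ∀ m, ∀ (σ : GalQ) x, F m (f (act σ x)) = σ (F m (f x)) := by
      intro m σ x
      rw [map_prod, hcomm]
      refine Finset.prod_nbij' (fun z => act σ⁻¹ z) (fun z => act σ z) ?_ ?_ ?_ ?_ ?_
      · intro z hz
        simp only [fib, Finset.mem_filter, Finset.mem_univ, true_and] at hz ⊢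
        rw [hcomm, hz, act_inv_cancel act']
      · intro z hz
        simp only [fib, Finset.mem_filter, Finset.mem_univ, true_and] at hz ⊢
        rw [hcomm, hz]
      · exact fun z _ => act_cancel_inv act σ z
      · exact fun z _ => act_inv_cancel act σ z
      · intro z _
        rw [map_sub, map_natCast, ← M.equivariant a ha, act_cancel_inv]
    have heq : ∀ m, F m w = F m w' := by
      intro m
      obtain ⟨r, hr, hmem⟩ := exists_smul_mem M (fun x => F m (f x)) (hF m)
      have h := hall (r • F m) hmem
      exact smul_right_injective (AlgebraicClosure ℚ)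
        (show ((r : Rp p) : ℚ) ≠ 0 from fun h => hr (Subtype.ext h)) h
    obtain ⟨x, hx⟩ := hf w
    let q : Q → Polynomial (AlgebraicClosure ℚ) := fun v =>
      ∏ z ∈ fib v, (Polynomial.X - Polynomial.C (a z))
    have hq : q w = q w' := by
      refine Polynomial.eq_of_infinite_eval_eq _ _
        ((Set.infinite_range_of_injective Nat.cast_injective).mono
          (Set.range_subset_iff.mpr fun m => ?_))
      simpa [q, Polynomial.eval_prod, F] using heq m
    have h := congrArg (Polynomial.eval (a x)) hq
    simp only [q, Polynomial.eval_prod, Polynomial.eval_sub, Polynomial.eval_X,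
      Polynomial.eval_C] at h
    rw [Finset.prod_eq_zero (i := x) (by simp [fib, hx]) (sub_self _), eq_comm,
      Finset.prod_eq_zero_iff] at h
    obtain ⟨z, hz, hz0⟩ := h
    rw [hainj (sub_eq_zero.mp hz0)] at hx
    exact hne (hx.symm.trans (by simpa [fib] using hz))
  · intro g hg
    obtain ⟨t, ht⟩ := (mem_prodSpan_iff M).mp (M.comul _ hg)
    have ht' : ∀ x y, mulMap₂ M t (x, y) = g (f x + f y) := fun x y => by
      rw [ht]; simp
    obtain ⟨s, hs⟩ := exists_descend M (incl M) (basis M) (basis_li M) f hf t fun x y y' h =>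
      (ht' x y).trans ((congrArg (fun v => g (f x + v)) h).trans (ht' x y').symm)
    let s' : O' ⊗[Rp p] M.O := TensorProduct.comm (Rp p) M.O O' s
    have hs' : ∀ x y, mulMap O'.val (incl M) s' (f x, y) = g (f x + f y) := by
      intro x y
      have hswap : ∀ u : M.O ⊗[Rp p] O',
          mulMap O'.val (incl M) (TensorProduct.comm (Rp p) M.O O' u) (f x, y) =
            mulMap (incl M) O'.val u (y, f x) := by
        intro u
        induction u using TensorProduct.induction_on with
        | zero => simp
        | tmul a b => simp [mul_comm]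
        | add a b ha hb => simp only [map_add, Pi.add_apply, ha, hb]
      rw [hswap]
      exact (hs y x).trans ((ht' y x).trans (by rw [add_comm]))
    obtain ⟨r, hr⟩ := exists_descend M O'.val b' hb' f hf s' fun w y y' h => by
      obtain ⟨x, rfl⟩ := hf w
      rw [hs', hs', h]
    have hgr : (fun xy : Q × Q => g (xy.1 + xy.2)) = mulMap O'.val O'.val r := by
      funext ⟨w, w'⟩
      obtain ⟨x, rfl⟩ := hf w
      obtain ⟨y, rfl⟩ := hf w'
      rw [hr, hs']
    rw [hgr]
    clear hgr hr
    induction r using TensorProduct.induction_on with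
    | zero => rw [map_zero]; exact Submodule.zero_mem _
    | tmul u v =>
      exact Submodule.subset_span ⟨u, u.2, v, v.2, funext fun z => mulMap_tmul _ _ _ _ z⟩
    | add u v hu hv => rw [map_add]; exact Submodule.add_mem _ hu hv

/-- A finite power of a module with a model has a model. -/
theorem model_pi [Finite P] (M : FlatModel p P act) {ι : Type} [Finite ι]
    {actι : GalQ →* AddMonoid.End (ι → P)}
    (hact : ∀ σ (x : ι → P) (i : ι), actι σ x i = act σ (x i)) :
    HasFlatModel p (ι → P) actι := by
  classical
  haveI := Fintype.ofFinite ι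
  haveI := M.finite_O
  obtain ⟨s, hs⟩ := (Module.Finite.fg_top (R := Rp p) (M := M.O))
  let φ : ι → M.O →ₐ[Rp p] ((ι → P) → AlgebraicClosure ℚ) :=
    fun i => (pull p fun x : ι → P => x i).comp (incl M)
  let G : Set ((ι → P) → AlgebraicClosure ℚ) := ⋃ i, φ i '' (s : Set M.O)
  let O := Algebra.adjoin (Rp p) G
  have hφO : ∀ i a, φ i a ∈ O := by
    intro i a
    have ha : a ∈ Submodule.span (Rp p) (s : Set M.O) := hs ▸ Submodule.mem_top
    induction ha using Submodule.span_induction with
    | mem a ha => exact Algebra.subset_adjoin (Set.mem_iUnion.mpr ⟨i, a, ha, rfl⟩)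
    | zero => rw [map_zero]; exact O.zero_mem
    | add a b _ _ ha hb => rw [map_add]; exact O.add_mem ha hb
    | smul r a _ ha => rw [map_smul]; exact O.smul_mem ha r
  refine ⟨{ O := O, finite_O := ?_, equivariant := ?_, separates := ?_, comul := ?_ }⟩
  · refine Module.Finite.iff_fg.mpr (fg_adjoin_of_finite
      (Set.finite_iUnion fun i => s.finite_toSet.image _) ?_)
    intro g hg
    obtain ⟨i, a, -, rfl⟩ := Set.mem_iUnion.mp hg
    exact (Algebra.IsIntegral.isIntegral a).map (φ i)
  · intro g hg σ x
    induction hg using Algebra.adjoin_induction with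
    | mem g hg =>
      obtain ⟨i, a, -, rfl⟩ := Set.mem_iUnion.mp hg
      show (a : P → _) (actι σ x i) = σ ((a : P → _) (x i))
      rw [hact]
      exact M.equivariant _ a.2 σ (x i)
    | algebraMap r => exact ((galHom p σ).commutes r).symm
    | add u v _ _ hu hv => simp [hu, hv]
    | mul u v _ _ hu hv => simp [hu, hv]
  · intro x y hxy
    obtain ⟨i, hi⟩ := Function.ne_iff.mp hxy
    obtain ⟨a, ha, hne⟩ := M.separates _ _ hi
    exact ⟨φ i ⟨a, ha⟩, hφO i _, hne⟩
  · have hle : O ≤ (mulMap O.val O.val).range.comap
        (pull p fun z : (ι → P) × (ι → P) => z.1 + z.2) := by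
      refine Algebra.adjoin_le fun g hg => ?_
      obtain ⟨i, a, -, rfl⟩ := Set.mem_iUnion.mp hg
      obtain ⟨t, ht⟩ := (mem_prodSpan_iff M).mp (M.comul _ a.2)
      refine ⟨Algebra.TensorProduct.map ((φ i).codRestrict O (hφO i)) ((φ i).codRestrict O (hφO i))
        t, funext fun z => ?_⟩
      have key : ∀ u : M.O ⊗[Rp p] M.O, mulMap O.val O.val (Algebra.TensorProduct.map
          ((φ i).codRestrict O (hφO i)) ((φ i).codRestrict O (hφO i)) u) z =
            mulMap₂ M u (z.1 i, z.2 i) := by
        intro u
        induction u using TensorProduct.induction_on with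
        | zero => simp
        | tmul c d => simp [φ, mulMap₂]
        | add c d hc hd => simp only [map_add, Pi.add_apply, hc, hd]
      exact (key t).trans (by rw [ht]; rfl)
    intro g hg
    obtain ⟨t, ht⟩ := hle hg
    change mulMap O.val O.val t = pull p (fun z : (ι → P) × (ι → P) => z.1 + z.2) g at ht
    rw [show (fun xy : (ι → P) × (ι → P) => g (xy.1 + xy.2)) = mulMap O.val O.val t from ht.symm]
    clear ht
    induction t using TensorProduct.induction_on with
    | zero => rw [map_zero]; exact Submodule.zero_mem _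
    | tmul u v =>
      exact Submodule.subset_span ⟨u, u.2, v, v.2, funext fun z => mulMap_tmul _ _ _ _ z⟩
    | add u v hu hv => rw [map_add]; exact Submodule.add_mem _ hu hv

end FLTA.HeckeDatum.Flat

end
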