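import Fermat.Agent.HeckeDatum.FlatModelHopf
import Fermat.Agent.HeckeDatum.FlatModelOps

/-!
Permanence properties of flat models, and the comparison with Hopf algebras.
-/

set_option autoImplicit false

noncomputable section

namespace FLTA.HeckeDatum

variable {p : ℕ} {P Q : Type} [AddCommGroup P] [AddCommGroup Q]
  {act : GalQ →* AddMonoid.End P} {act' : GalQ →* AddMonoid.End Q}

theorem HasFlatModel.of_isHopfFlat [Finite P] (hp : p.Prime) (h : IsHopfFlat p P act) :
    HasFlatModel p P act :=
  Flat.model_of_isHopfFlat h

theorem HasFlatModel.isHopfFlat [Finite P] (hp : p.Prime) (h : HasFlatModel p P act) :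
    IsHopfFlat p P act :=
  h.elim fun M => Flat.isHopfFlat_of_model M

theorem HasFlatModel.of_injective [Finite P] (hp : p.Prime) (f : Q →+ P)
    (hf : Function.Injective f) (hcomm : ∀ σ x, f (act' σ x) = act σ (f x))
    (h : HasFlatModel p P act) : HasFlatModel p Q act' :=
  h.elim fun M => Flat.model_of_injective M f hf hcomm

theorem HasFlatModel.of_surjective [Finite P] (hp : p.Prime) (f : P →+ Q)
    (hf : Function.Surjective f) (hcomm : ∀ σ x, f (act σ x) = act' σ (f x))
    (h : HasFlatModel p P act) : HasFlatModel p Q act' :=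
  h.elim fun M => Flat.model_of_surjective M f hf hcomm

theorem HasFlatModel.pi [Finite P] (hp : p.Prime) {ι : Type} [Finite ι]
    {actι : GalQ →* AddMonoid.End (ι → P)}
    (hact : ∀ σ (x : ι → P) (i : ι), actι σ x i = act σ (x i))
    (h : HasFlatModel p P act) : HasFlatModel p (ι → P) actι :=
  h.elim fun M => Flat.model_pi M hact

end FLTA.HeckeDatum

end
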