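import Fermat.Prelude.Def_GaloisRep_Flat
import Mathlib.Algebra.Algebra.Pi
import Mathlib.Data.Finite.Prod

/-!
Models of finite Galois modules by finite orders in algebras of equivariant functions.
-/

set_option autoImplicit false

noncomputable section

namespace FLTA.HeckeDatum

/-- The absolute Galois group of `ℚ`. -/
abbrev GalQ : Type := AlgebraicClosure ℚ ≃ₐ[ℚ] AlgebraicClosure ℚ

/-- A finite order in the equivariant functions on a Galois module, separating the points and
stable under comultiplication. -/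
structure FlatModel (p : ℕ) (P : Type) [AddCommGroup P] (act : GalQ →* AddMonoid.End P) where
  O : Subalgebra (GaloisRep.ratLocalizedAt p) (P → AlgebraicClosure ℚ)
  finite_O : Module.Finite (GaloisRep.ratLocalizedAt p) O
  equivariant : ∀ f ∈ O, ∀ (σ : GalQ) (x : P), f (act σ x) = σ (f x)
  separates : ∀ x y : P, x ≠ y → ∃ f ∈ O, f x ≠ f y
  comul : ∀ f ∈ O, (fun xy : P × P => f (xy.1 + xy.2)) ∈
    Submodule.span (GaloisRep.ratLocalizedAt p)
      {g : P × P → AlgebraicClosure ℚ | ∃ a ∈ O, ∃ b ∈ O, g = fun xy => a xy.1 * b xy.2}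

/-- A Galois module has a flat model at `p`. -/
def HasFlatModel (p : ℕ) (P : Type) [AddCommGroup P] (act : GalQ →* AddMonoid.End P) : Prop :=
  Nonempty (FlatModel p P act)

/-- The Galois module is given by the points of a finite flat cocommutative Hopf algebra. -/
def IsHopfFlat (p : ℕ) (P : Type) [AddCommGroup P] (act : GalQ →* AddMonoid.End P) : Prop :=
  ∃ (H : Type) (_ : CommRing H) (_ : HopfAlgebra (GaloisRep.ratLocalizedAt p) H),
    Module.Finite (GaloisRep.ratLocalizedAt p) H ∧
    Module.Flat (GaloisRep.ratLocalizedAt p) H ∧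
    Coalgebra.IsCocomm (GaloisRep.ratLocalizedAt p) H ∧
    ∃ e : WithConv (H →ₐ[GaloisRep.ratLocalizedAt p] AlgebraicClosure ℚ) ≃ P,
      (∀ f g : WithConv (H →ₐ[GaloisRep.ratLocalizedAt p] AlgebraicClosure ℚ),
        e (f * g) = e f + e g) ∧
      ∀ (σ : GalQ) (f g : WithConv (H →ₐ[GaloisRep.ratLocalizedAt p] AlgebraicClosure ℚ)),
        (∀ h : H, g h = σ (f h)) → e g = act σ (e f)

end FLTA.HeckeDatum

end
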