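import Fermat.Agent.HeckeDatum.FlatModelBasic
import Mathlib.RingTheory.HopfAlgebra.Basic
import Mathlib.RingTheory.Bialgebra.Convolution

/-!
# Flat models versus finite flat Hopf algebras
-/

set_option autoImplicit false

noncomputable section

open scoped TensorProduct
open WithConv

namespace FLTA.HeckeDatum.Flat

attribute [local instance] isFractionRing isPrincipalIdealRing

variable {p : ℕ} {P : Type} [AddCommGroup P] {act : GalQ →* AddMonoid.End P}

section Model

variable (M : FlatModel p P act)

/-- Pullback along addition, landing in the range of `O ⊗ O`. -/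
def addPull : M.O →ₐ[Rp p] (mulMap₂ M).range :=
  ((pull p fun xy : P × P => xy.1 + xy.2).comp (incl M)).codRestrict _ fun f => by
    obtain ⟨t, ht⟩ := (mem_prodSpan_iff M).mp (M.comul _ f.2)
    exact ⟨t, ht⟩

/-- The comultiplication. -/
def comulHom : M.O →ₐ[Rp p] M.O ⊗[Rp p] M.O :=
  ((AlgEquiv.ofInjective (mulMap₂ M) (mulMap₂_injective M)).symm : _ →ₐ[Rp p] _).comp (addPull M)

theorem mulMap₂_comulHom (f : M.O) (z : P × P) :
    mulMap₂ M (comulHom M f) z = (f : P → AlgebraicClosure ℚ) (z.1 + z.2) := by
  have h : (AlgEquiv.ofInjective (mulMap₂ M) (mulMap₂_injective M)) (comulHom M f) = addPull M f := by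
    simp [comulHom]
  have h2 := congrArg (fun w : (mulMap₂ M).range => (w : P × P → AlgebraicClosure ℚ) z) h
  exact h2

theorem zero_mem_range (f : M.O) :
    ∃ r : Rp p, Algebra.ofId (Rp p) (AlgebraicClosure ℚ) r = (f : P → AlgebraicClosure ℚ) 0 := by
  obtain ⟨q, hq⟩ := mem_range_of_fixed (x := (f : P → AlgebraicClosure ℚ) 0) fun σ => by
    rw [← M.equivariant _ f.2, map_zero]
  have hint : q ∈ GaloisRep.ratLocalizedAt p := by
    refine mem_of_isIntegral p ?_
    rw [hq]
    exact isIntegral_apply M f.2 0
  exact ⟨⟨q, hint⟩, hq⟩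

theorem ofId_injective :
    Function.Injective (Algebra.ofId (Rp p) (AlgebraicClosure ℚ)) := by
  intro a b h
  exact Subtype.ext ((algebraMap ℚ (AlgebraicClosure ℚ)).injective h)

/-- Evaluation at zero, landing in the range of the structure map. -/
def zeroEval : M.O →ₐ[Rp p] (Algebra.ofId (Rp p) (AlgebraicClosure ℚ)).range :=
  ((Pi.evalAlgHom (Rp p) (fun _ : P => AlgebraicClosure ℚ) 0).comp (incl M)).codRestrict _
    fun f => zero_mem_range M f

/-- The counit. -/
def counitHom : M.O →ₐ[Rp p] Rp p :=
  ((AlgEquiv.ofInjective _ (ofId_injective (p := p))).symm : _ →ₐ[Rp p] _).comp (zeroEval M)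

theorem algebraMap_counitHom (f : M.O) :
    algebraMap (Rp p) (AlgebraicClosure ℚ) (counitHom M f) = (f : P → AlgebraicClosure ℚ) 0 := by
  have h : (AlgEquiv.ofInjective _ (ofId_injective (p := p))) (counitHom M f) = zeroEval M f := by
    simp [counitHom]
  exact congrArg
    (fun w : (Algebra.ofId (Rp p) (AlgebraicClosure ℚ)).range => (w : AlgebraicClosure ℚ)) h

/-- `O ⊗ (O ⊗ O)` as functions on `P × (P × P)`. -/
def mulMap₃ : M.O ⊗[Rp p] (M.O ⊗[Rp p] M.O) →ₐ[Rp p] (P × P × P → AlgebraicClosure ℚ) :=
  mulMap (A := ↥M.O) (B := ↥M.O ⊗[Rp p] ↥M.O) (incl M) (mulMap₂ M)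

theorem mulMap₃_injective : Function.Injective (mulMap₃ M) :=
  mulMap_injective _ _ (basis M) (basis_li M) (mulMap₂_injective M)

theorem comul_assoc_left (t : M.O ⊗[Rp p] M.O) (x y z : P) :
    mulMap₃ M (Algebra.TensorProduct.assoc (Rp p) (Rp p) (Rp p) M.O M.O M.O
      (Algebra.TensorProduct.map (comulHom M) (AlgHom.id (Rp p) M.O) t)) (x, y, z) =
      mulMap₂ M t (x + y, z) := by
  induction t using TensorProduct.induction_on with
  | zero => simp
  | tmul a b =>
    rw [Algebra.TensorProduct.map_tmul, AlgHom.id_apply]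
    have key : ∀ u : M.O ⊗[Rp p] M.O,
        mulMap₃ M (Algebra.TensorProduct.assoc (Rp p) (Rp p) (Rp p) M.O M.O M.O (u ⊗ₜ b))
          (x, y, z) = mulMap₂ M u (x, y) * (b : P → AlgebraicClosure ℚ) z := by
      intro u
      induction u using TensorProduct.induction_on with
      | zero => simp
      | tmul c d =>
        simp [mulMap₃, mulMap₂, mul_assoc]
      | add c d hc hd =>
        simp only [TensorProduct.add_tmul, map_add, Pi.add_apply, hc, hd, add_mul]
    rw [key, mulMap₂_comulHom]
    simp [mulMap₂]
  | add a b ha hb => simp only [map_add, Pi.add_apply, ha, hb]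

theorem comul_assoc_right (t : M.O ⊗[Rp p] M.O) (x y z : P) :
    mulMap₃ M (Algebra.TensorProduct.map (AlgHom.id (Rp p) M.O) (comulHom M) t) (x, y, z) =
      mulMap₂ M t (x, y + z) := by
  induction t using TensorProduct.induction_on with
  | zero => simp
  | tmul a b =>
    rw [Algebra.TensorProduct.map_tmul, AlgHom.id_apply]
    simp [mulMap₃, mulMap₂_comulHom]
    simp [mulMap₂]
  | add a b ha hb => simp only [map_add, Pi.add_apply, ha, hb]

/-- The bialgebra structure. -/
@[reducible] def bialg : Bialgebra (Rp p) M.O :=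
  Bialgebra.ofAlgHom (comulHom M) (counitHom M)
    (AlgHom.ext fun f => mulMap₃_injective M (funext fun ⟨x, y, z⟩ => by
      rw [AlgHom.comp_apply, AlgHom.comp_apply, AlgHom.comp_apply]
      erw [comul_assoc_left, comul_assoc_right]
      rw [mulMap₂_comulHom, mulMap₂_comulHom, add_assoc]))
    (AlgHom.ext fun f => (Algebra.TensorProduct.lid (Rp p) M.O).injective (Subtype.ext
      (funext fun x => by
        rw [AlgHom.comp_apply]
        have key : ∀ t : M.O ⊗[Rp p] M.O,
            ((Algebra.TensorProduct.lid (Rp p) M.O)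
              (Algebra.TensorProduct.map (counitHom M) (AlgHom.id (Rp p) M.O) t) :
                P → AlgebraicClosure ℚ) x = mulMap₂ M t (0, x) := by
          intro t
          induction t using TensorProduct.induction_on with
          | zero => simp
          | tmul a b =>
            simp [mulMap₂, Algebra.smul_def, ← algebraMap_counitHom]
          | add a b ha hb => simp only [map_add, AddMemClass.coe_add, Pi.add_apply, ha, hb]
        rw [key, mulMap₂_comulHom, zero_add]
        simp)))
    (AlgHom.ext fun f => (Algebra.TensorProduct.rid (Rp p) (Rp p) M.O).injective (Subtype.ext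
      (funext fun x => by
        rw [AlgHom.comp_apply]
        have key : ∀ t : M.O ⊗[Rp p] M.O,
            ((Algebra.TensorProduct.rid (Rp p) (Rp p) M.O)
              (Algebra.TensorProduct.map (AlgHom.id (Rp p) M.O) (counitHom M) t) :
                P → AlgebraicClosure ℚ) x = mulMap₂ M t (x, 0) := by
          intro t
          induction t using TensorProduct.induction_on with
          | zero => simp
          | tmul a b =>
            simp [mulMap₂, Algebra.smul_def, ← algebraMap_counitHom, mul_comm]
          | add a b ha hb => simp only [map_add, AddMemClass.coe_add, Pi.add_apply, ha, hb]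
        rw [key, mulMap₂_comulHom, add_zero]
        simp)))

/-- The antipode. -/
def antipodeHom [Finite P] : M.O →ₐ[Rp p] M.O :=
  ((pull p fun x : P => -x).comp (incl M)).codRestrict M.O fun f => comp_neg_mem M f.2

theorem antipodeHom_apply [Finite P] (f : M.O) (x : P) :
    (antipodeHom M f : P → AlgebraicClosure ℚ) x = (f : P → AlgebraicClosure ℚ) (-x) := rfl

theorem lift_apply_eq (φ ψ : M.O →ₐ[Rp p] M.O) (α β : P → P)
    (hφ : ∀ f x, (φ f : P → AlgebraicClosure ℚ) x = (f : P → AlgebraicClosure ℚ) (α x))
    (hψ : ∀ f x, (ψ f : P → AlgebraicClosure ℚ) x = (f : P → AlgebraicClosure ℚ) (β x))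
    (t : M.O ⊗[Rp p] M.O) (x : P) :
    (Algebra.TensorProduct.lift φ ψ (fun _ _ => Commute.all _ _) t : P → AlgebraicClosure ℚ) x =
      mulMap₂ M t (α x, β x) := by
  induction t using TensorProduct.induction_on with
  | zero => simp
  | tmul a b => simp [mulMap₂, hφ, hψ]
  | add a b ha hb => simp only [map_add, AddMemClass.coe_add, Pi.add_apply, ha, hb]

/-- The Hopf algebra structure on a model. -/
@[reducible] def hopf [Finite P] : HopfAlgebra (Rp p) M.O :=
  letI := bialg M
  HopfAlgebra.ofAlgHom (antipodeHom M)
    (AlgHom.ext fun f => Subtype.ext (funext fun x => by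
      refine (lift_apply_eq M (antipodeHom M) (AlgHom.id _ _) (fun y => -y) id
        (fun _ _ => rfl) (fun _ _ => rfl) (comulHom M f) x).trans ?_
      rw [mulMap₂_comulHom]
      show (f : P → AlgebraicClosure ℚ) (-x + x) = _
      rw [neg_add_cancel, ← algebraMap_counitHom]
      rfl))
    (AlgHom.ext fun f => Subtype.ext (funext fun x => by
      refine (lift_apply_eq M (AlgHom.id _ _) (antipodeHom M) id (fun y => -y)
        (fun _ _ => rfl) (fun _ _ => rfl) (comulHom M f) x).trans ?_
      rw [mulMap₂_comulHom]
      show (f : P → AlgebraicClosure ℚ) (x + -x) = _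
      rw [add_neg_cancel, ← algebraMap_counitHom]
      rfl))

/-- Evaluation at a point. -/
def evalPoint (x : P) : M.O →ₐ[Rp p] AlgebraicClosure ℚ :=
  (Pi.evalAlgHom (Rp p) (fun _ : P => AlgebraicClosure ℚ) x).comp (incl M)

theorem evalPoint_injective : Function.Injective (evalPoint M) := by
  intro x y h
  by_contra hxy
  obtain ⟨f, hf, hne⟩ := M.separates x y hxy
  exact hne (AlgHom.congr_fun h ⟨f, hf⟩)

theorem lift_evalPoint (t : M.O ⊗[Rp p] M.O) (x y : P) :
    Algebra.TensorProduct.lift (evalPoint M x) (evalPoint M y) (fun _ _ => Commute.all _ _) t =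
      mulMap₂ M t (x, y) := by
  induction t using TensorProduct.induction_on with
  | zero => simp
  | tmul a b => simp [mulMap₂, evalPoint]
  | add a b ha hb => simp only [map_add, Pi.add_apply, ha, hb]

include M in
theorem isHopfFlat_of_model [Finite P] : IsHopfFlat p P act := by
  letI := hopf M
  refine ⟨M.O, inferInstance, hopf M, M.finite_O, flat M, ⟨?_⟩, ?_⟩
  · refine LinearMap.ext fun f => mulMap₂_injective M (funext fun z => ?_)
    have key : ∀ t : M.O ⊗[Rp p] M.O,
        mulMap₂ M (TensorProduct.comm (Rp p) M.O M.O t) z = mulMap₂ M t (z.2, z.1) := by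
      intro t
      induction t using TensorProduct.induction_on with
      | zero => simp
      | tmul a b => simp [mulMap₂, mul_comm]
      | add a b ha hb => simp only [map_add, Pi.add_apply, ha, hb]
    show mulMap₂ M (TensorProduct.comm (Rp p) M.O M.O (comulHom M f)) z =
      mulMap₂ M (comulHom M f) z
    rw [key, mulMap₂_comulHom, mulMap₂_comulHom, add_comm]
  · have hbij : Function.Bijective fun x : P => toConv (evalPoint M x) :=
      ⟨fun x y h => evalPoint_injective M (congrArg ofConv h), fun f => by
        obtain ⟨x, hx⟩ := exists_point M f.ofConv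
        exact ⟨x, by rw [← toConv_ofConv f]; exact congrArg toConv (AlgHom.ext fun a => (hx a).symm)⟩⟩
    have hadd : ∀ x y : P,
        toConv (evalPoint M (x + y)) = toConv (evalPoint M x) * toConv (evalPoint M y) := by
      intro x y
      refine WithConv.ext (AlgHom.ext fun f => ?_)
      show evalPoint M (x + y) f = (toConv (evalPoint M x) * toConv (evalPoint M y)) f
      rw [AlgHom.convMul_apply]
      refine Eq.trans ?_ (lift_evalPoint M (comulHom M f) x y).symm
      rw [mulMap₂_comulHom]
      rfl
    refine ⟨(Equiv.ofBijective _ hbij).symm, fun f g => ?_, fun σ f g hfg => ?_⟩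
    · obtain ⟨x, rfl⟩ := hbij.2 f
      obtain ⟨y, rfl⟩ := hbij.2 g
      rw [← hadd, Equiv.ofBijective_symm_apply_apply, Equiv.ofBijective_symm_apply_apply,
        Equiv.ofBijective_symm_apply_apply]
    · obtain ⟨x, rfl⟩ := hbij.2 f
      have hg : g = toConv (evalPoint M (act σ x)) :=
        WithConv.ext (AlgHom.ext fun a => (hfg a).trans (M.equivariant _ a.2 σ x).symm)
      rw [hg, Equiv.ofBijective_symm_apply_apply, Equiv.ofBijective_symm_apply_apply]

end Model

theorem model_of_isHopfFlat (h : IsHopfFlat p P act) : HasFlatModel p P act := by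
  obtain ⟨H, _, _, hfin, -, -, e, he, heq⟩ := h
  let ev : H →ₐ[Rp p] (P → AlgebraicClosure ℚ) := Pi.algHom (Rp p) _ fun x => (e.symm x).ofConv
  have hadd : ∀ x y : P, e.symm (x + y) = e.symm x * e.symm y := by
    intro x y
    apply e.injective
    rw [he, Equiv.apply_symm_apply, Equiv.apply_symm_apply, Equiv.apply_symm_apply]
  haveI := hfin
  refine ⟨{ O := ev.range, finite_O := ?_, equivariant := ?_, separates := ?_, comul := ?_ }⟩
  · exact Module.Finite.of_surjective ev.rangeRestrict.toLinearMap ev.rangeRestrict_surjective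
  · rintro _ ⟨c, rfl⟩ σ x
    have := heq σ (e.symm x) (toConv ((galHom p σ).comp (e.symm x).ofConv)) fun _ => rfl
    rw [Equiv.apply_symm_apply, ← Equiv.eq_symm_apply] at this
    show (e.symm (act σ x)).ofConv c = σ ((e.symm x).ofConv c)
    rw [← this]
    rfl
  · intro x y hxy
    by_contra! hall
    refine hxy (e.symm.injective (WithConv.ext (AlgHom.ext fun c => ?_)))
    exact hall (ev c) ⟨c, rfl⟩
  · rintro _ ⟨c, rfl⟩
    have hfun : (fun xy : P × P => ev c (xy.1 + xy.2)) = fun xy : P × P =>
        Algebra.TensorProduct.lift (e.symm xy.1).ofConv (e.symm xy.2).ofConv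
          (fun _ _ => Commute.all _ _) (Coalgebra.comul (R := Rp p) c) := by
      funext xy
      show (e.symm (xy.1 + xy.2)) c = _
      rw [hadd, AlgHom.convMul_apply]
    rw [show (fun xy : P × P => (ev.toRingHom c) (xy.1 + xy.2)) =
      fun xy : P × P => ev c (xy.1 + xy.2) from rfl, hfun]
    generalize Coalgebra.comul (R := Rp p) c = t
    induction t using TensorProduct.induction_on with
    | zero => simp only [map_zero]; exact Submodule.zero_mem _
    | tmul a b =>
      refine Submodule.subset_span ⟨ev a, ⟨a, rfl⟩, ev b, ⟨b, rfl⟩, funext fun xy => ?_⟩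
      simp [ev]
    | add a b ha hb => simp only [map_add]; exact Submodule.add_mem _ ha hb

end FLTA.HeckeDatum.Flat

end
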