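import Fermat.Agent.HeckeDatum.FlatModel
import Mathlib.LinearAlgebra.Finsupp.LinearCombination
import Mathlib.GroupTheory.QuotientGroup.Basic

/-!
# Modules whose group-ring relations contain those of a module with a flat model

If every relation `∑ n_g g = 0` on `P` holds on `W`, then `W` is a Galois subquotient of a finite
power of `P`, so it has a flat model whenever `P` has one.
-/

set_option autoImplicit false

noncomputable section

namespace FLTA.HeckeDatum

variable {p : ℕ} {P W : Type} [AddCommGroup P] [AddCommGroup W]

/-- The action of the group ring attached to a Galois action. -/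
def groupRingAct {A : Type} [AddCommGroup A] (act : GalQ →* AddMonoid.End A) :
    (GalQ →₀ ℤ) →ₗ[ℤ] AddMonoid.End A :=
  Finsupp.linearCombination ℤ fun g => act g

theorem groupRingAct_mapDomain {A : Type} [AddCommGroup A] (act : GalQ →* AddMonoid.End A)
    (σ : GalQ) (c : GalQ →₀ ℤ) :
    groupRingAct act (Finsupp.mapDomain (σ * ·) c) = act σ * groupRingAct act c := by
  induction c using Finsupp.induction_linear with
  | zero => simp
  | add a b ha hb => simp [Finsupp.mapDomain_add, mul_add, ha, hb]
  | single g n =>
    simp only [groupRingAct, Finsupp.mapDomain_single, Finsupp.linearCombination_single, map_mul,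
      mul_smul_comm]

/-- A Galois module satisfying all group-ring relations of a module with a flat model has a flat
model. -/
theorem HasFlatModel.of_relations [Finite P] [Finite W] (hp : p.Prime)
    {act : GalQ →* AddMonoid.End P} {act' : GalQ →* AddMonoid.End W}
    (hrel : ∀ c : GalQ →₀ ℤ, groupRingAct act c = 0 → groupRingAct act' c = 0)
    (h : HasFlatModel p P act) : HasFlatModel p W act' := by
  classical
  haveI := Fintype.ofFinite W
  let actπ : GalQ →* AddMonoid.End (W × P → P) :=
    { toFun := fun σ =>
        { toFun := fun v i => act σ (v i)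
          map_zero' := funext fun i => map_zero (act σ)
          map_add' := fun u v => funext fun i => map_add (act σ) (u i) (v i) }
      map_one' := AddMonoidHom.ext fun v => funext fun i => by
        show act 1 (v i) = v i
        rw [map_one]; rfl
      map_mul' := fun σ τ => AddMonoidHom.ext fun v => funext fun i => by
        show act (σ * τ) (v i) = act σ (act τ (v i))
        rw [map_mul]; rfl }
  have hπ : HasFlatModel p (W × P → P) actπ := HasFlatModel.pi hp (fun _ _ _ => rfl) h
  let Ψ : (W → (GalQ →₀ ℤ)) →+ (W × P → P) :=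
    { toFun := fun c i => groupRingAct act (c i.1) i.2
      map_zero' := by funext i; simp
      map_add' := fun a b => funext fun i => by
        show groupRingAct act ((a + b) i.1) i.2 = _
        rw [Pi.add_apply, map_add]; rfl }
  let Φ : (W → (GalQ →₀ ℤ)) →+ W :=
    { toFun := fun c => ∑ w, groupRingAct act' (c w) w
      map_zero' := by simp
      map_add' := fun a b => by
        rw [← Finset.sum_add_distrib]
        exact Finset.sum_congr rfl fun w _ => by rw [Pi.add_apply, map_add]; rfl }
  have hker : Ψ.ker ≤ Φ.ker := by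
    intro c hc
    have h0 : ∀ w, groupRingAct act (c w) = 0 := fun w =>
      AddMonoidHom.ext fun x => congrFun (AddMonoidHom.mem_ker.mp hc) (w, x)
    refine AddMonoidHom.mem_ker.mpr (Finset.sum_eq_zero fun w _ => ?_)
    rw [hrel _ (h0 w)]
    rfl
  have hΦ : Function.Surjective Φ := fun v => ⟨Pi.single v (Finsupp.single 1 1), by
    refine (Finset.sum_eq_single v (fun w _ hw => ?_) fun hv => absurd (Finset.mem_univ v) hv).trans ?_
    · simp [Pi.single_eq_of_ne hw]
    · simp [groupRingAct]⟩
  let shift : GalQ → (W → (GalQ →₀ ℤ)) → W → (GalQ →₀ ℤ) :=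
    fun σ c w => Finsupp.mapDomain (σ * ·) (c w)
  have hΨshift : ∀ σ c, Ψ (shift σ c) = actπ σ (Ψ c) := fun σ c => funext fun i => by
    show groupRingAct act (shift σ c i.1) i.2 = act σ (groupRingAct act (c i.1) i.2)
    rw [groupRingAct_mapDomain]
    rfl
  have hΦshift : ∀ σ c, Φ (shift σ c) = act' σ (Φ c) := fun σ c => by
    show ∑ w, groupRingAct act' (shift σ c w) w = act' σ (∑ w, groupRingAct act' (c w) w)
    rw [map_sum]
    exact Finset.sum_congr rfl fun w _ => by rw [groupRingAct_mapDomain]; rfl
  let S := Ψ.range
  have hS : ∀ σ, ∀ v ∈ S, actπ σ v ∈ S := by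
    rintro σ _ ⟨c, rfl⟩
    exact ⟨shift σ c, hΨshift σ c⟩
  let actS : GalQ →* AddMonoid.End S :=
    { toFun := fun σ =>
        { toFun := fun v => ⟨actπ σ v.1, hS σ v.1 v.2⟩
          map_zero' := Subtype.ext (map_zero (actπ σ))
          map_add' := fun u v => Subtype.ext (map_add (actπ σ) u.1 v.1) }
      map_one' := AddMonoidHom.ext fun v => Subtype.ext (by
        show actπ 1 v.1 = v.1
        rw [map_one]; rfl)
      map_mul' := fun σ τ => AddMonoidHom.ext fun v => Subtype.ext (by
        show actπ (σ * τ) v.1 = actπ σ (actπ τ v.1)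
        rw [map_mul]; rfl) }
  have hSmodel : HasFlatModel p S actS :=
    HasFlatModel.of_injective hp S.subtype Subtype.val_injective (fun _ _ => rfl) hπ
  let f : S →+ W :=
    Ψ.rangeRestrict.liftOfSurjective Ψ.rangeRestrict_surjective
      ⟨Φ, (AddMonoidHom.ker_rangeRestrict Ψ).le.trans hker⟩
  have hf : ∀ c, f (Ψ.rangeRestrict c) = Φ c := fun c =>
    AddMonoidHom.liftOfRightInverse_comp_apply _ _ _ _ c
  refine HasFlatModel.of_surjective hp f (fun v => ?_) (fun σ v => ?_) hSmodel
  · obtain ⟨c, rfl⟩ := hΦ v
    exact ⟨_, hf c⟩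
  · obtain ⟨c, rfl⟩ := Ψ.rangeRestrict_surjective v
    rw [hf, ← hΦshift, ← hf]
    congr 1
    exact Subtype.ext (hΨshift σ c).symm

end FLTA.HeckeDatum

end
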